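import Fermat.Agent.FormSystems.Complete

/-!
# Lattice sums and integrals over a box

The sum of a slowly varying function over the integer points of a box is its integral, up to the
unit cells meeting the boundary.
-/

set_option autoImplicit false

noncomputable section

namespace FA.WeakApproximation

open Finset FA.CubicForms FA.FormsManyVariables FA.FormSystems MeasureTheory

variable {k : ℕ}

theorem card_cbox_slice_le (H : ℕ) (l : Fin k) (c : ℤ) :
    ((cbox k H).filter fun x => x l = c).card ≤ (2 * H + 1) ^ (k - 1) := by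
  classical
  refine (card_le_card (t := Fintype.piFinset
    (Function.update (fun _ : Fin k => Finset.Icc (-(H : ℤ)) (H : ℤ)) l {c})) fun x hx => ?_).trans
      (le_of_eq ?_)
  · obtain ⟨h1, h2⟩ := mem_filter.1 hx
    refine Fintype.mem_piFinset.2 fun i => ?_
    by_cases hi : i = l
    · subst hi; simp [h2]
    · simp only [Function.update_of_ne hi, Finset.mem_Icc]
      exact abs_le.1 (mem_cbox.1 h1 i)
  · rw [Fintype.card_piFinset, ← mul_prod_erase _ _ (mem_univ l), Function.update_self,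
      card_singleton, one_mul, prod_congr rfl fun i hi => by
        rw [Function.update_of_ne (ne_of_mem_erase hi), Int.card_Icc,
          show (H : ℤ) + 1 - -(H : ℤ) = ((2 * H + 1 : ℕ) : ℤ) by push_cast; ring, Int.toNat_natCast],
      prod_const, card_erase_of_mem (mem_univ l), card_univ, Fintype.card_fin]

theorem measurableSet_unitCell (x : Fin k → ℤ) : MeasurableSet (unitCell x) :=
  MeasurableSet.univ_pi fun _ => measurableSet_Ico

theorem volume_real_unitCell (x : Fin k → ℤ) : volume.real (unitCell x) = 1 := by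
  rw [Measure.real, unitCell, Real.volume_pi_Ico_toReal fun i => by linarith]
  simp

theorem volume_unitCell_lt_top (x : Fin k → ℤ) : volume (unitCell x) < ⊤ :=
  lt_of_le_of_lt (measure_mono (Set.pi_mono fun _ _ => Set.Ico_subset_Icc_self))
    (isCompact_univ_pi fun _ => isCompact_Icc).measure_lt_top

/-- **A sum over the integer points of a box and the integral.** -/
theorem norm_box_sum_sub_integral_le (g : (Fin k → ℝ) → ℂ) (hg : Continuous g) {H : ℕ}
    {U V : Fin k → ℝ} (hU : ∀ l, -(H : ℝ) ≤ U l) (hV : ∀ l, V l ≤ H) {K B : ℝ} (hK0 : 0 ≤ K)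
    (hK : ∀ x y : Fin k → ℝ, x ∈ symBox k (H + 1) → y ∈ symBox k (H + 1) →
      (∀ i, |x i - y i| ≤ 1) → ‖g x - g y‖ ≤ K) (hB : ∀ x, ‖g x‖ ≤ B) :
    ‖∑ x ∈ ibox (fun l => ⌈U l⌉) (fun l => ⌊V l⌋), g (fun i => (x i : ℝ)) -
        ∫ y in Set.Icc U V, g y‖ ≤
      4 * k * (2 * (H : ℝ) + 1) ^ (k - 1) * B + (2 * (H : ℝ) + 1) ^ k * K := by
  classical
  have hB0 : 0 ≤ B := (norm_nonneg _).trans (hB 0)
  have hmem : ∀ x : Fin k → ℤ, x ∈ ibox (fun l => ⌈U l⌉) (fun l => ⌊V l⌋) ↔
      ∀ l, U l ≤ x l ∧ (x l : ℝ) ≤ V l := fun x => by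
    simp [ibox, Fintype.mem_piFinset, Int.ceil_le, Int.le_floor]
  have hsub : ibox (fun l => ⌈U l⌉) (fun l => ⌊V l⌋) ⊆ cbox k H := fun x hx => by
    refine mem_cbox.2 fun l => abs_le.2 ?_
    obtain ⟨h1, h2⟩ := (hmem x).1 hx l
    have h3 : ((-(H : ℤ) : ℤ) : ℝ) ≤ (x l : ℝ) := by push_cast; linarith [hU l]
    have h4 : (x l : ℝ) ≤ ((H : ℤ) : ℝ) := by push_cast; linarith [hV l]
    exact ⟨Int.cast_le.1 h3, Int.cast_le.1 h4⟩
  have hint : ∀ x : Fin k → ℤ, IntegrableOn g (unitCell x ∩ Set.Icc U V) := fun x =>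
    (hg.continuousOn.integrableOn_compact isCompact_Icc).mono_set Set.inter_subset_right
  have hset : Set.Icc U V = ⋃ x ∈ cbox k H, unitCell x ∩ Set.Icc U V := by
    ext y
    simp only [Set.mem_iUnion, Set.mem_inter_iff, exists_prop, mem_unitCell]
    refine ⟨fun hy => ⟨fun l => ⌊y l⌋, mem_cbox.2 fun l => abs_le.2 ?_, fun _ => rfl, hy⟩,
      fun ⟨_, _, _, hy⟩ => hy⟩
    constructor
    · rw [Int.le_floor]; push_cast; linarith [hU l, hy.1 l]
    · rw [← Int.lt_add_one_iff, Int.floor_lt]; push_cast; linarith [hV l, hy.2 l]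
  have hdec : ∫ y in Set.Icc U V, g y = ∑ x ∈ cbox k H, ∫ y in unitCell x ∩ Set.Icc U V, g y := by
    conv_lhs => rw [hset]
    exact integral_biUnion_finset (cbox k H)
      (fun x _ => (measurableSet_unitCell x).inter measurableSet_Icc)
      (fun x _ x' _ hne => Set.disjoint_left.2 fun y h1 h2 => hne (funext fun i => by
        rw [← mem_unitCell.1 h1.1 i, mem_unitCell.1 h2.1 i])) fun x _ => hint x
  obtain ⟨D, hD⟩ : ∃ D : Finset (Fin k → ℤ),
      D = (cbox k H).filter fun x => ∃ l, x l = ⌊U l⌋ ∨ x l = ⌊V l⌋ := ⟨_, rfl⟩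
  have hcard : (D.card : ℝ) ≤ 2 * k * (2 * (H : ℝ) + 1) ^ (k - 1) := by
    have h1 : D ⊆ (univ : Finset (Fin k)).biUnion fun l =>
        ((cbox k H).filter fun x => x l = ⌊U l⌋) ∪ (cbox k H).filter fun x => x l = ⌊V l⌋ := by
      intro x hx
      obtain ⟨hx', l, hl⟩ := mem_filter.1 (hD ▸ hx)
      exact mem_biUnion.2 ⟨l, mem_univ l, mem_union.2 (hl.imp (fun h => mem_filter.2 ⟨hx', h⟩)
        fun h => mem_filter.2 ⟨hx', h⟩)⟩
    have h2 : D.card ≤ k * ((2 * H + 1) ^ (k - 1) + (2 * H + 1) ^ (k - 1)) :=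
      (card_le_card h1).trans (card_biUnion_le.trans ((sum_le_card_nsmul _ _ _ fun l _ =>
        (card_union_le _ _).trans (add_le_add (card_cbox_slice_le H l _)
          (card_cbox_slice_le H l _))).trans (by simp)))
    refine (Nat.cast_le.2 h2).trans (le_of_eq ?_)
    push_cast
    ring
  obtain ⟨d, hd⟩ : ∃ d : (Fin k → ℤ) → ℂ, d = fun x =>
      (if ∀ l, U l ≤ x l ∧ (x l : ℝ) ≤ V l then g (fun i => (x i : ℝ)) else 0) -
        ∫ y in unitCell x ∩ Set.Icc U V, g y := ⟨_, rfl⟩
  have htot : ∑ x ∈ ibox (fun l => ⌈U l⌉) (fun l => ⌊V l⌋), g (fun i => (x i : ℝ)) -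
      ∫ y in Set.Icc U V, g y = ∑ x ∈ cbox k H, d x := by
    rw [hd, sum_sub_distrib, ← hdec, ← sum_filter]
    refine congrArg (fun z : ℂ => z - ∫ y in Set.Icc U V, g y) (sum_congr ?_ fun _ _ => rfl)
    ext x
    simp only [mem_filter, hmem x]
    exact ⟨fun h => ⟨hsub ((hmem x).2 h), h⟩, fun h => h.2⟩
  have hbd : ∀ x ∈ D, ‖d x‖ ≤ 2 * B := fun x _ => by
    rw [hd, two_mul]
    refine (norm_sub_le _ _).trans (add_le_add ?_ ?_)
    · split_ifs
      exacts [hB _, by simpa using hB0]
    · refine (norm_setIntegral_le_of_norm_le_const (C := B)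
        ((measure_mono Set.inter_subset_left).trans_lt (volume_unitCell_lt_top x))
        fun y _ => hB y).trans ?_
      refine mul_le_of_le_one_right hB0 ?_
      rw [← volume_real_unitCell x]
      exact measureReal_mono Set.inter_subset_left (volume_unitCell_lt_top x).ne
  have hin : ∀ x ∈ cbox k H \ D, ‖d x‖ ≤ K := by
    intro x hx
    obtain ⟨hxc, hxD⟩ := mem_sdiff.1 hx
    have hne : ∀ l, x l ≠ ⌊U l⌋ ∧ x l ≠ ⌊V l⌋ := fun l =>
      ⟨fun h => hxD (hD ▸ mem_filter.2 ⟨hxc, l, Or.inl h⟩),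
        fun h => hxD (hD ▸ mem_filter.2 ⟨hxc, l, Or.inr h⟩)⟩
    simp only [hd]
    by_cases hall : ∀ l, U l ≤ x l ∧ (x l : ℝ) ≤ V l
    · have hsub' : unitCell x ⊆ Set.Icc U V := fun y hy => by
        refine ⟨fun l => (hall l).1.trans (hy l trivial).1, fun l => ?_⟩
        have h1 : x l + 1 ≤ ⌊V l⌋ := lt_of_le_of_ne (Int.le_floor.2 (hall l).2) (hne l).2
        have h2 : (x l : ℝ) + 1 ≤ V l := by
          have := Int.le_floor.1 h1
          push_cast at this
          exact this
        linarith [(hy l trivial).2]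
      rw [if_pos hall, Set.inter_eq_self_of_subset_left hsub']
      have e : g (fun i => (x i : ℝ)) = ∫ _ in unitCell x, g (fun i => (x i : ℝ)) := by
        rw [setIntegral_const, volume_real_unitCell, one_smul]
      rw [e, ← integral_sub (integrableOn_const (C := g fun i => (x i : ℝ))
        (volume_unitCell_lt_top x).ne) ((hint x).mono_set (Set.subset_inter le_rfl hsub'))]
      refine (norm_setIntegral_le_of_norm_le_const (C := K) (volume_unitCell_lt_top x)
        fun y hy => ?_).trans (le_of_eq (by rw [volume_real_unitCell, mul_one]))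
      have hy' : ∀ i, (x i : ℝ) ≤ y i ∧ y i < x i + 1 := fun i => hy i trivial
      have hx' : ∀ i, -(H : ℝ) ≤ x i ∧ (x i : ℝ) ≤ H := fun i => by
        have := abs_le.1 (mem_cbox.1 hxc i)
        exact ⟨by exact_mod_cast this.1, by exact_mod_cast this.2⟩
      exact hK _ y (mem_symBox.2 fun i => abs_le.2 ⟨by linarith [hx' i], by linarith [hx' i]⟩)
        (mem_symBox.2 fun i => abs_le.2
          ⟨by linarith [hx' i, hy' i], by linarith [hx' i, hy' i]⟩)
        fun i => abs_le.2 ⟨by linarith [hy' i], by linarith [hy' i]⟩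
    · have hempty : unitCell x ∩ Set.Icc U V = ∅ := Set.eq_empty_of_forall_notMem fun y hy => by
        obtain ⟨l, hl⟩ := not_forall.1 hall
        have hy' : (x l : ℝ) ≤ y l ∧ y l < x l + 1 := hy.1 l trivial
        rcases not_and_or.1 hl with h | h
        · have h1 : x l + 1 ≤ ⌊U l⌋ :=
            lt_of_le_of_ne (Int.le_floor.2 (not_le.1 h).le) (hne l).1
          have h2 : (x l : ℝ) + 1 ≤ U l := by
            have := Int.le_floor.1 h1
            push_cast at this
            exact this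
          linarith [hy.2.1 l]
        · linarith [hy.2.2 l, not_le.1 h]
      rw [if_neg hall, hempty, setIntegral_empty, sub_zero, norm_zero]
      exact hK0
  rw [htot, ← sum_sdiff (show D ⊆ cbox k H from hD ▸ filter_subset _ _), add_comm]
  refine (norm_add_le _ _).trans (add_le_add ?_ ?_)
  · refine (norm_sum_le _ _).trans ((sum_le_card_nsmul _ _ _ hbd).trans ?_)
    rw [nsmul_eq_mul]
    refine (mul_le_mul_of_nonneg_right hcard (by positivity)).trans (le_of_eq ?_)
    ring
  · refine (norm_sum_le _ _).trans ((sum_le_card_nsmul _ _ _ hin).trans ?_)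
    rw [nsmul_eq_mul]
    refine mul_le_mul_of_nonneg_right ((Nat.cast_le.2 (card_le_card sdiff_subset)).trans
      (le_of_eq ?_)) hK0
    rw [card_cbox]
    push_cast
    rfl

end FA.WeakApproximation
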