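import Fermat.Agent.FormSystems.Minor

/-!
# Sums over a box and a congruence class

The sum of `e (α · F)` over the points of `P [u, v]` in a class modulo `M` is an average of sums
twisted by linear forms, and these disappear on differencing: so Weyl's inequality holds unchanged.
-/

set_option autoImplicit false

noncomputable section

namespace FA.WeakApproximation

open Finset FA.ThreePrimes FA.CubicForms FA.FormsManyVariables FA.FormSystems MvPolynomial

variable {n r : ℕ}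

/-- The integer points of `P [u, v]`. -/
def realBox (P : ℕ) (u v : Fin n → ℝ) : Finset (Fin n → ℤ) :=
  ibox (fun l => ⌈(P : ℝ) * u l⌉) fun l => ⌊(P : ℝ) * v l⌋

theorem mem_realBox {P : ℕ} {u v : Fin n → ℝ} {x : Fin n → ℤ} :
    x ∈ realBox P u v ↔ ∀ l, (P : ℝ) * u l ≤ x l ∧ (x l : ℝ) ≤ (P : ℝ) * v l := by
  simp [realBox, ibox, Fintype.mem_piFinset, Int.ceil_le, Int.le_floor]

/-- The box lies in `[-1, 1] ^ n`. -/
def InUnitBox (u v : Fin n → ℝ) : Prop := ∀ l, -1 ≤ u l ∧ v l ≤ 1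

theorem realBox_subset_cbox {P : ℕ} {u v : Fin n → ℝ} (h : InUnitBox u v) :
    realBox P u v ⊆ cbox n P := by
  intro x hx
  refine mem_cbox.2 fun l => abs_le.2 ?_
  obtain ⟨h1, h2⟩ := mem_realBox.1 hx l
  have h3 := mul_le_mul_of_nonneg_left (h l).1 (Nat.cast_nonneg' (α := ℝ) P)
  have h4 := mul_le_mul_of_nonneg_left (h l).2 (Nat.cast_nonneg' (α := ℝ) P)
  have h5 : ((-(P : ℤ) : ℤ) : ℝ) ≤ (x l : ℝ) := by push_cast; linarith
  have h6 : (x l : ℝ) ≤ ((P : ℤ) : ℝ) := by push_cast; linarith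
  exact ⟨Int.cast_le.1 h5, Int.cast_le.1 h6⟩

/-- The points of `P [u, v]` congruent to `a` modulo `M`. -/
def classBox (M : ℕ) (a : Fin n → ℤ) (P : ℕ) (u v : Fin n → ℝ) : Finset (Fin n → ℤ) :=
  (realBox P u v).filter fun x => ∀ l, (x l : ZMod M) = (a l : ZMod M)

variable (F : Fin r → MvPolynomial (Fin n) ℤ)

/-- The exponential sum over the class. -/
def classSum (M : ℕ) (a : Fin n → ℤ) (P : ℕ) (u v : Fin n → ℝ) (α : Fin r → ℝ) : ℂ :=
  ∑ x ∈ classBox M a P u v, eAdd (∑ i, α i * (eval x (F i) : ℤ))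

/-- The number of common zeros in the class. -/
def countClassZeros (M : ℕ) (a : Fin n → ℤ) (P : ℕ) (u v : Fin n → ℝ) : ℕ :=
  ((classBox M a P u v).filter fun x => ∀ i, eval x (F i) = 0).card

theorem sum_eAdd_class {M : ℕ} (hM : 0 < M) (a x : Fin n → ℤ) :
    ∑ t ∈ residueBox n M,
        eAdd ((1 / (M : ℝ)) * ((∑ l, (t l : ℤ) * (x l - a l) : ℤ) : ℝ)) =
      if ∀ l, (x l : ZMod M) = (a l : ZMod M) then (M : ℂ) ^ n else 0 := by
  have e : ∀ t : Fin n → ℕ,
      eAdd ((1 / (M : ℝ)) * ((∑ l, (t l : ℤ) * (x l - a l) : ℤ) : ℝ)) =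
        ∏ l, eAdd (((x l - a l : ℤ) : ℝ) * t l / M) := fun t => by
    rw [← eAdd_sum, Int.cast_sum, mul_sum]
    refine congrArg _ (sum_congr rfl fun l _ => ?_)
    push_cast
    ring
  simp only [e]
  rw [residueBox, ← prod_univ_sum (fun _ : Fin n => range M)
    fun l t => eAdd (((x l - a l : ℤ) : ℝ) * t / M)]
  simp only [sum_eAdd_grid hM]
  have hiff : ∀ l, (M : ℤ) ∣ x l - a l ↔ (x l : ZMod M) = (a l : ZMod M) := fun l => by
    rw [eq_comm, ZMod.intCast_eq_intCast_iff_dvd_sub]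
  simp only [hiff]
  by_cases h : ∀ l, (x l : ZMod M) = (a l : ZMod M)
  · simp [h]
  · rw [if_neg h]
    obtain ⟨l, hl⟩ := not_forall.1 h
    exact prod_eq_zero (mem_univ l) (if_neg hl)

theorem degLE_linear (t a : Fin n → ℤ) :
    DegLE 1 fun x : Fin n → ℤ => ∑ l, t l * (x l - a l) := by
  have e : (fun x : Fin n → ℤ => ∑ l, t l * (x l - a l)) =
      ∑ l, ((t l • fun x : Fin n → ℤ => x l) + fun _ => -(t l * a l)) := by
    funext x
    simp only [Finset.sum_apply, Pi.add_apply, Pi.smul_apply, smul_eq_mul]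
    exact sum_congr rfl fun l _ => by ring
  rw [e]
  exact Finset.sum_induction _ (DegLE 1) (fun _ _ => DegLE.add) (degLE_const 0 1)
    fun l _ => ((degLE_coord l).smul _).add (degLE_const _ 1)

/-- **Weyl's inequality in a box and a class.** -/
theorem sysWeylBound_classSum {m : ℕ} (hF : ∀ i, (F i).totalDegree ≤ m + 2) {M P : ℕ}
    (hM : 1 ≤ M) (hP : 1 ≤ P) (a : Fin n → ℤ) {u v : Fin n → ℝ} (huv : InUnitBox u v)
    (α : Fin r → ℝ) : SysWeylBound F m P α (classSum F M a P u v α) := by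
  classical
  constructor
  · refine (norm_sum_le _ _).trans ?_
    simp only [norm_eAdd, sum_const, nsmul_eq_mul, mul_one]
    refine (Nat.cast_le.2 (card_le_card ((filter_subset _ _).trans
      (realBox_subset_cbox huv)))).trans (le_of_eq ?_)
    rw [card_cbox]
    push_cast
    rfl
  obtain ⟨T, hT⟩ : ∃ T : (Fin n → ℕ) → ℂ, T = fun t => ∑ x ∈ realBox P u v,
      eAdd ((1 / (M : ℝ)) * ((∑ l, (t l : ℤ) * (x l - a l) : ℤ) : ℝ) +
        ∑ i, α i * (eval x (F i) : ℤ)) := ⟨_, rfl⟩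
  have hsum : ∑ t ∈ residueBox n M, T t = (M : ℂ) ^ n * classSum F M a P u v α := by
    simp only [hT, eAdd_add]
    rw [sum_comm, classSum, classBox, sum_filter, mul_sum]
    refine sum_congr rfl fun x _ => ?_
    rw [← sum_mul, sum_eAdd_class hM]
    split_ifs <;> simp
  obtain ⟨t, -, ht⟩ : ∃ t ∈ residueBox n M, ‖classSum F M a P u v α‖ ≤ ‖T t‖ := by
    refine exists_le_of_sum_le ⟨fun _ => 0, mem_residueBox.2 fun _ => hM⟩ ?_
    refine le_trans ?_ (norm_sum_le _ _)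
    rw [hsum, norm_mul, norm_pow, Complex.norm_natCast, sum_const, card_residueBox,
      nsmul_eq_mul, Nat.cast_pow]
  refine (pow_le_pow_left₀ (norm_nonneg _) ht _).trans ?_
  rw [hT]
  refine norm_twisted_pow_le F hF hP α _ ((degLE_linear _ _).mono (Nat.succ_pos m)) _ _ fun l => ?_
  have h1 := Int.floor_le ((P : ℝ) * v l)
  have h2 := Int.le_ceil ((P : ℝ) * u l)
  have h3 := mul_le_mul_of_nonneg_left (huv l).1 (Nat.cast_nonneg' (α := ℝ) P)
  have h4 := mul_le_mul_of_nonneg_left (huv l).2 (Nat.cast_nonneg' (α := ℝ) P)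
  have h5 : ((⌊(P : ℝ) * v l⌋ - ⌈(P : ℝ) * u l⌉ : ℤ) : ℝ) ≤ ((2 * (P : ℤ) : ℤ) : ℝ) := by
    push_cast
    linarith
  exact Int.cast_le.1 h5

end FA.WeakApproximation
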