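import Fermat.Agent.FormSystems.Integral
import Fermat.Agent.WeakApproximation.Cells
import Fermat.Agent.WeakApproximation.ClassSum

/-!
# Sums over a box and a class near a fraction

Near `b / q` the sum over `x ≡ a (mod M)` in `P [u, v]` is `(q M) ^ (-n)` times a complete sum of the
system `F (a + M w)`, times `P ^ n` times the integral of `e (γ · F)` over `[u, v]`.
-/

set_option autoImplicit false

noncomputable section

namespace FA.WeakApproximation

open Finset FA.ThreePrimes FA.CubicForms FA.FormsManyVariables FA.FormSystems MvPolynomial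
  MeasureTheory
open scoped Real Pointwise

variable {n r : ℕ} (F : Fin r → MvPolynomial (Fin n) ℤ)

/-- The integral of `e (γ · F)` over `[u, v]`. -/
def boxIntegral (u v : Fin n → ℝ) (γ : Fin r → ℝ) : ℂ :=
  ∫ y in Set.Icc u v, eAdd (sysPhase F γ y)

/-- The system `F (a + M w)`. -/
def classShift (M : ℕ) (a : Fin n → ℤ) (i : Fin r) : MvPolynomial (Fin n) ℤ :=
  aeval (fun l => C (a l) + C (M : ℤ) * X l) (F i)

theorem aeval_classShift {R : Type*} [CommRing R] (M : ℕ) (a : Fin n → ℤ) (i : Fin r)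
    (w : Fin n → R) :
    aeval w (classShift F M a i) = aeval (fun l => (a l : R) + (M : R) * w l) (F i) := by
  rw [classShift, comp_aeval_apply]
  simp

theorem eval_classShift (M : ℕ) (a : Fin n → ℤ) (i : Fin r) (w : Fin n → ℤ) :
    eval w (classShift F M a i) = eval (fun l => a l + (M : ℤ) * w l) (F i) := by
  simpa using aeval_classShift F M a i w

theorem subset_symBox_one {u v : Fin n → ℝ} (h : InUnitBox u v) : Set.Icc u v ⊆ symBox n 1 :=
  fun _ hy => mem_symBox.2 fun l =>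
    abs_le.2 ⟨(h l).1.trans (hy.1 l), (hy.2 l).trans (h l).2⟩

theorem smul_Icc_of_pos {c : ℝ} (hc : 0 < c) (U V : Fin n → ℝ) :
    c • Set.Icc U V = Set.Icc (c • U) (c • V) := by
  ext y
  rw [Set.mem_smul_set_iff_inv_smul_mem₀ hc.ne']
  simp only [Set.mem_Icc, Pi.le_def, Pi.smul_apply, smul_eq_mul]
  refine and_congr (forall_congr' fun l => le_inv_mul_iff₀ hc) (forall_congr' fun l => ?_)
  exact inv_mul_le_iff₀ hc

theorem setIntegral_Icc_affine (g : (Fin n → ℝ) → ℂ) {c : ℝ} (hc : 0 < c) (z U V : Fin n → ℝ) :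
    (c : ℂ) ^ n * ∫ y in Set.Icc U V, g (z + c • y) =
      ∫ y in Set.Icc (z + c • U) (z + c • V), g y := by
  have h := Measure.setIntegral_comp_smul_of_pos (volume : Measure (Fin n → ℝ))
    (fun y => g (z + y)) (Set.Icc U V) hc
  simp only [smul_Icc_of_pos hc, Module.finrank_fintype_fun_eq_card, Fintype.card_fin] at h
  have ht := (measurePreserving_add_left (volume : Measure (Fin n → ℝ)) z).setIntegral_preimage_emb
    (MeasurableEquiv.addLeft z).measurableEmbedding g (Set.Icc (z + c • U) (z + c • V))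
  rw [Set.preimage_const_add_Icc, add_sub_cancel_left, add_sub_cancel_left] at ht
  rw [h, ht, Complex.real_smul]
  push_cast
  rw [← mul_assoc, mul_inv_cancel₀ (pow_ne_zero _ (by exact_mod_cast hc.ne')), one_mul]

/-- **The points of one residue.** -/
theorem exists_coset_sum {m : ℕ} (hF : ∀ i, (F i).IsHomogeneous (m + 2)) :
    ∃ C : ℝ, 0 < C ∧ ∀ (P Q : ℕ) (z : Fin n → ℕ) (u v : Fin n → ℝ) (β : Fin r → ℝ),
      InUnitBox u v → 1 ≤ Q → Q ≤ P → (∀ l, z l < Q) →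
      ‖(Q : ℂ) ^ n * (∑ x ∈ (realBox P u v).filter
            (fun x => ∀ l, (x l : ZMod Q) = (z l : ZMod Q)),
          eAdd (∑ i, β i * (eval x (F i) : ℤ))) -
        (P : ℂ) ^ n * boxIntegral F u v (((P : ℝ) ^ (m + 2)) • β)‖ ≤
      C * Q * (P : ℝ) ^ (n - 1) * (1 + (P : ℝ) ^ (m + 2) * ‖β‖) := by
  obtain ⟨L, hL⟩ : ∃ L : ℝ, L = 2 * π * (((m + 2 : ℕ) : ℝ) * sysSize F * 5 ^ (m + 1)) := ⟨_, rfl⟩
  have hL0 : 0 ≤ L := hL ▸ by positivity
  refine ⟨4 * n * 7 ^ n + 7 ^ n * L + 1, by positivity, fun P Q z u v β huv hQ hQP hz => ?_⟩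
  have hP : 1 ≤ P := hQ.trans hQP
  have hP0 : (1 : ℝ) ≤ P := by exact_mod_cast hP
  have hQ0 : (1 : ℝ) ≤ Q := by exact_mod_cast hQ
  have hQpos : (0 : ℝ) < Q := by linarith
  have hQP' : (Q : ℝ) ≤ P := Nat.cast_le.2 hQP
  obtain ⟨U, hU⟩ : ∃ U : Fin n → ℝ, U = fun l => ((P : ℝ) * u l - z l) / Q := ⟨_, rfl⟩
  obtain ⟨V, hV⟩ : ∃ V : Fin n → ℝ, V = fun l => ((P : ℝ) * v l - z l) / Q := ⟨_, rfl⟩
  obtain ⟨zR, hzR⟩ : ∃ zR : Fin n → ℝ, zR = fun l => (z l : ℝ) := ⟨_, rfl⟩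
  obtain ⟨g, hg⟩ : ∃ g : (Fin n → ℝ) → ℂ,
      g = fun y => eAdd (sysPhase F β (zR + (Q : ℝ) • y)) := ⟨_, rfl⟩
  have hwbox : ∀ w : Fin n → ℤ, w ∈ ibox (fun l => ⌈U l⌉) (fun l => ⌊V l⌋) ↔
      ∀ l, (P : ℝ) * u l ≤ ((z l : ℤ) + Q * w l : ℤ) ∧
        (((z l : ℤ) + Q * w l : ℤ) : ℝ) ≤ P * v l := fun w => by
    simp only [ibox, Fintype.mem_piFinset, Finset.mem_Icc, Int.ceil_le, Int.le_floor, hU, hV,
      le_div_iff₀ hQpos, div_le_iff₀ hQpos]
    push_cast
    exact forall_congr' fun l => ⟨fun h => ⟨by linarith [h.1], by linarith [h.2]⟩,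
      fun h => ⟨by linarith [h.1], by linarith [h.2]⟩⟩
  have hsum : ∑ x ∈ (realBox P u v).filter (fun x => ∀ l, (x l : ZMod Q) = (z l : ZMod Q)),
      eAdd (∑ i, β i * (eval x (F i) : ℤ)) =
        ∑ w ∈ ibox (fun l => ⌈U l⌉) (fun l => ⌊V l⌋), g (fun l => (w l : ℝ)) := by
    symm
    refine sum_nbij' (fun w l => (z l : ℤ) + Q * w l) (fun x l => (x l - z l) / Q)
      (fun w hw => mem_filter.2 ⟨mem_realBox.2 ((hwbox w).1 hw), fun l => by simp⟩)
      (fun x hx => ?_) (fun w _ => funext fun l => ?_) (fun x hx => funext fun l => ?_)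
      fun w _ => ?_
    · obtain ⟨h1, h2⟩ := mem_filter.1 hx
      refine (hwbox _).2 fun l => ?_
      have hd : (Q : ℤ) ∣ x l - z l := by
        rw [← ZMod.intCast_eq_intCast_iff_dvd_sub]
        exact_mod_cast (h2 l).symm
      rw [Int.mul_ediv_cancel' hd, add_sub_cancel]
      exact mem_realBox.1 h1 l
    · simp only [add_sub_cancel_left]
      exact Int.mul_ediv_cancel_left _ (show (Q : ℤ) ≠ 0 by omega)
    · have hd : (Q : ℤ) ∣ x l - z l := by
        rw [← ZMod.intCast_eq_intCast_iff_dvd_sub]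
        exact_mod_cast ((mem_filter.1 hx).2 l).symm
      simp only [Int.mul_ediv_cancel' hd, add_sub_cancel]
    · have e : zR + (Q : ℝ) • (fun l => (w l : ℝ)) =
          fun l => (((z l : ℤ) + Q * w l : ℤ) : ℝ) := funext fun l => by simp [hzR]
      simp only [hg, sysPhase, e, aeval_intCast]
  have hint : (Q : ℂ) ^ n * ∫ y in Set.Icc U V, g y =
      (P : ℂ) ^ n * boxIntegral F u v (((P : ℝ) ^ (m + 2)) • β) := by
    have h1 := setIntegral_Icc_affine (fun y => eAdd (sysPhase F β y)) hQpos zR U V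
    have h2 := setIntegral_Icc_affine (fun y => eAdd (sysPhase F β y))
      (show (0 : ℝ) < P by linarith) 0 u v
    have e1 : zR + (Q : ℝ) • U = (P : ℝ) • u := funext fun l => by
      simp only [hzR, hU, Pi.add_apply, Pi.smul_apply, smul_eq_mul]; field_simp; ring
    have e2 : zR + (Q : ℝ) • V = (P : ℝ) • v := funext fun l => by
      simp only [hzR, hV, Pi.add_apply, Pi.smul_apply, smul_eq_mul]; field_simp; ring
    simp only [e1, e2, zero_add, Complex.ofReal_natCast] at h1 h2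
    rw [hg, h1, ← h2, boxIntegral]
    congr 1
    refine setIntegral_congr_fun measurableSet_Icc fun y _ => congrArg _ ?_
    simp only [sysPhase, Pi.smul_apply, smul_eq_mul]
    exact sum_congr rfl fun i _ => by rw [aeval_smul (F i) (hF i)]; ring
  rw [hsum, ← hint, ← mul_sub, norm_mul, norm_pow, Complex.norm_natCast]
  obtain ⟨H, hH⟩ : ∃ H : ℕ, H = P / Q + 2 := ⟨_, rfl⟩
  have hHge : (P : ℝ) / Q + 1 ≤ H := by
    have h1 : ((P : ℕ) : ℝ) < ((Q * (P / Q + 1) : ℕ) : ℝ) := by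
      exact_mod_cast Nat.lt_mul_div_succ P hQ
    rw [hH]
    push_cast at h1 ⊢
    have h2 : (P : ℝ) / Q ≤ ((P / Q : ℕ) : ℝ) + 1 := by
      rw [div_le_iff₀ hQpos]; linarith
    linarith
  have hPQ1 : 1 ≤ (P : ℝ) / Q := (one_le_div hQpos).2 hQP'
  have hHle : (H : ℝ) ≤ 3 * ((P : ℝ) / Q) := by
    have h1 : ((P / Q : ℕ) : ℝ) ≤ (P : ℝ) / Q := Nat.cast_div_le
    rw [hH]; push_cast; linarith
  have hzl : ∀ l, (z l : ℝ) / Q ≤ 1 ∧ 0 ≤ (z l : ℝ) / Q := fun l =>
    ⟨(div_le_one hQpos).2 (Nat.cast_le.2 (hz l).le), by positivity⟩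
  have hUH : ∀ l, -(H : ℝ) ≤ U l := fun l => by
    rw [hU]
    have h1 := div_le_div_of_nonneg_right
      (mul_le_mul_of_nonneg_left (huv l).1 (Nat.cast_nonneg' (α := ℝ) P)) hQpos.le
    rw [mul_neg, mul_one, neg_div] at h1
    simp only [sub_div]
    linarith [hzl l]
  have hVH : ∀ l, V l ≤ H := fun l => by
    rw [hV]
    have h1 := div_le_div_of_nonneg_right
      (mul_le_mul_of_nonneg_left (huv l).2 (Nat.cast_nonneg' (α := ℝ) P)) hQpos.le
    rw [mul_one] at h1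
    simp only [sub_div]
    linarith [hzl l]
  have hgc : Continuous g := by
    rw [hg]
    exact continuous_eAdd.comp ((continuous_sysPhase F β).comp (by fun_prop))
  have hosc : ∀ x y : Fin n → ℝ, x ∈ symBox n (H + 1) → y ∈ symBox n (H + 1) →
      (∀ i, |x i - y i| ≤ 1) → ‖g x - g y‖ ≤ L * (‖β‖ * (P : ℝ) ^ (m + 1) * Q) := by
    intro x y hx hy hxy
    rw [hg]
    refine (norm_eAdd_sub_le _ _).trans ?_
    have hbd : ∀ x : Fin n → ℝ, x ∈ symBox n (H + 1) →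
        ∀ l, |(zR + (Q : ℝ) • x) l| ≤ 5 * P := fun x hx l => by
      rw [Pi.add_apply, Pi.smul_apply, smul_eq_mul]
      refine (abs_add_le _ _).trans ?_
      rw [abs_mul, hzR, Nat.abs_cast, Nat.abs_cast]
      have h1 : (z l : ℝ) ≤ P := (Nat.cast_le.2 (hz l).le).trans hQP'
      have h2 : (Q : ℝ) * |x l| ≤ Q * (4 * ((P : ℝ) / Q)) :=
        mul_le_mul_of_nonneg_left ((mem_symBox.1 hx l).trans (by linarith)) hQpos.le
      rw [show (Q : ℝ) * (4 * ((P : ℝ) / Q)) = 4 * P by field_simp] at h2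
      linarith
    have h := abs_sysPhase_sub_le F (d := m + 1) hF β (zR + (Q : ℝ) • x) (zR + (Q : ℝ) • y)
      (A := 5 * P) (δ := Q) (by linarith) (hbd x hx) (hbd y hy) fun l => by
        simp only [Pi.add_apply, Pi.smul_apply, smul_eq_mul, add_sub_add_left_eq_sub, ← mul_sub,
          abs_mul, Nat.abs_cast]
        exact mul_le_of_le_one_right hQpos.le (hxy l)
    refine (mul_le_mul_of_nonneg_left h (by positivity)).trans (le_of_eq ?_)
    rw [hL, mul_pow]; push_cast; ring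
  have hK0 : 0 ≤ L * (‖β‖ * (P : ℝ) ^ (m + 1) * Q) := by positivity
  refine (mul_le_mul_of_nonneg_left (norm_box_sum_sub_integral_le g hgc hUH hVH hK0 hosc (B := 1)
    fun x => by rw [hg]; exact (norm_eAdd _).le) (by positivity)).trans ?_
  have h7 : 2 * (H : ℝ) + 1 ≤ 7 * ((P : ℝ) / Q) := by linarith
  rcases Nat.eq_zero_or_pos n with hn | hn
  · subst hn
    simp only [pow_zero, Nat.cast_zero, mul_zero, zero_add, one_mul, mul_one,
      Nat.zero_sub]
    have h0 : (P : ℝ) ^ (m + 1) ≤ (P : ℝ) ^ (m + 2) := pow_le_pow_right₀ hP0 (by omega)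
    have h1 := mul_le_mul_of_nonneg_left h0
      (show 0 ≤ L * ‖β‖ * Q by positivity)
    nlinarith [mul_nonneg hQpos.le (show 0 ≤ (P : ℝ) ^ (m + 2) * ‖β‖ by positivity)]
  obtain ⟨k, rfl⟩ : ∃ k, n = k + 1 := ⟨n - 1, by omega⟩
  rw [Nat.add_sub_cancel, mul_one]
  have e1 : (Q : ℝ) ^ (k + 1) * (4 * ((k + 1 : ℕ) : ℝ) * (2 * (H : ℝ) + 1) ^ k) ≤
      4 * ((k + 1 : ℕ) : ℝ) * 7 ^ (k + 1) * (Q * (P : ℝ) ^ k) := by
    calc (Q : ℝ) ^ (k + 1) * (4 * ((k + 1 : ℕ) : ℝ) * (2 * (H : ℝ) + 1) ^ k)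
        ≤ (Q : ℝ) ^ (k + 1) * (4 * ((k + 1 : ℕ) : ℝ) * (7 * ((P : ℝ) / Q)) ^ k) := by gcongr
      _ = 4 * ((k + 1 : ℕ) : ℝ) * 7 ^ k * (Q * (P : ℝ) ^ k) := by
          rw [mul_pow, div_pow]; field_simp; ring
      _ ≤ _ := by
          gcongr
          exacts [by norm_num, Nat.le_succ k]
  have e2 : (Q : ℝ) ^ (k + 1) *
      ((2 * (H : ℝ) + 1) ^ (k + 1) * (L * (‖β‖ * (P : ℝ) ^ (m + 1) * Q))) ≤
        7 ^ (k + 1) * L * (Q * (P : ℝ) ^ k) * ((P : ℝ) ^ (m + 2) * ‖β‖) := by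
    calc (Q : ℝ) ^ (k + 1) * ((2 * (H : ℝ) + 1) ^ (k + 1) * (L * (‖β‖ * (P : ℝ) ^ (m + 1) * Q)))
        ≤ (Q : ℝ) ^ (k + 1) *
            ((7 * ((P : ℝ) / Q)) ^ (k + 1) * (L * (‖β‖ * (P : ℝ) ^ (m + 1) * Q))) := by gcongr
      _ = _ := by rw [mul_pow, div_pow]; field_simp; ring
  have hX : 0 ≤ (Q : ℝ) * (P : ℝ) ^ k := by positivity
  have hw : 0 ≤ (P : ℝ) ^ (m + 2) * ‖β‖ := by positivity
  rw [mul_add]
  refine (add_le_add e1 e2).trans ?_
  nlinarith [mul_nonneg (show 0 ≤ 4 * ((k + 1 : ℕ) : ℝ) * 7 ^ (k + 1) + 1 by positivity)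
    (mul_nonneg hX hw), mul_nonneg (show 0 ≤ 7 ^ (k + 1) * L + 1 by positivity) hX]

theorem norm_boxIntegral_le {u v : Fin n → ℝ} (huv : InUnitBox u v) (γ : Fin r → ℝ) :
    ‖boxIntegral F u v γ‖ ≤ 2 ^ n := by
  refine (norm_setIntegral_le_of_norm_le_const (C := 1) isCompact_Icc.measure_lt_top
    fun y _ => (norm_eAdd _).le).trans ?_
  rw [one_mul, ← volume_real_symBox_one]
  exact measureReal_mono (subset_symBox_one huv) (volume_symBox_lt_top n 1).ne

theorem norm_boxIntegral_sub_le {d : ℕ} (hF : ∀ i, (F i).IsHomogeneous d) {u v : Fin n → ℝ}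
    (huv : InUnitBox u v) (γ δ : Fin r → ℝ) :
    ‖boxIntegral F u v γ - boxIntegral F u v δ‖ ≤ 2 * π * sysSize F * 2 ^ n * ‖γ - δ‖ := by
  have hint : ∀ γ : Fin r → ℝ,
      IntegrableOn (fun y => eAdd (sysPhase F γ y)) (Set.Icc u v) := fun γ =>
    (integrableOn_eAdd_sysPhase F γ 1).mono_set (subset_symBox_one huv)
  rw [boxIntegral, boxIntegral, ← integral_sub (hint γ) (hint δ)]
  refine (norm_setIntegral_le_of_norm_le_const (C := 2 * π * (‖γ - δ‖ * sysSize F))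
    isCompact_Icc.measure_lt_top fun y hy => ?_).trans ?_
  · refine (norm_eAdd_sub_le _ _).trans ?_
    rw [sysPhase_sub]
    have h := abs_sysPhase_le F hF (γ - δ) (mem_symBox.1 (subset_symBox_one huv hy))
    rw [one_pow, mul_one] at h
    exact mul_le_mul_of_nonneg_left h (by positivity)
  · refine (mul_le_mul_of_nonneg_left ((measureReal_mono (subset_symBox_one huv)
      (volume_symBox_lt_top n 1).ne).trans volume_real_symBox_one.le) (by positivity)).trans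
        (le_of_eq ?_)
    ring

theorem continuous_boxIntegral {d : ℕ} (hF : ∀ i, (F i).IsHomogeneous d) {u v : Fin n → ℝ}
    (huv : InUnitBox u v) : Continuous (boxIntegral F u v) := by
  refine (LipschitzWith.of_dist_le' (K := 2 * π * sysSize F * 2 ^ n) fun γ δ => ?_).continuous
  rw [dist_eq_norm, dist_eq_norm]
  exact norm_boxIntegral_sub_le F hF huv γ δ

theorem sum_classBox_eq {M q : ℕ} (hM : 1 ≤ M) (hq : 1 ≤ q) (a : Fin n → ℤ) (P : ℕ)
    (u v : Fin n → ℝ) (f : (Fin n → ℤ) → ℂ) :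
    ∑ x ∈ classBox M a P u v, f x = ∑ w ∈ residueBox n q, ∑ x ∈ (realBox P u v).filter
      (fun x => ∀ l, (x l : ZMod (q * M)) = ((a l + M * (w l : ℤ) : ℤ) : ZMod (q * M))), f x := by
  classical
  have hq0 : (0 : ℤ) < q := by omega
  have hM0 : (M : ℤ) ≠ 0 := by omega
  obtain ⟨key, hkey⟩ : ∃ key : (Fin n → ℤ) → Fin n → ℕ,
      key = fun x l => ((x l - a l) / M % q).toNat := ⟨_, rfl⟩
  have hmaps : ∀ x ∈ classBox M a P u v, key x ∈ residueBox n q := fun x _ => by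
    refine mem_residueBox.2 fun l => ?_
    rw [hkey, Int.toNat_lt (Int.emod_nonneg _ hq0.ne')]
    exact Int.emod_lt_of_pos _ hq0
  rw [← sum_fiberwise_of_maps_to hmaps]
  refine sum_congr rfl fun w hw => sum_congr ?_ fun _ _ => rfl
  ext x
  simp only [classBox, mem_filter, and_assoc]
  refine and_congr_right fun _ => ⟨fun ⟨h1, h2⟩ l => ?_, fun h => ⟨fun l => ?_, funext fun l => ?_⟩⟩
  · obtain ⟨t, ht⟩ : (M : ℤ) ∣ x l - a l := by
      rw [← ZMod.intCast_eq_intCast_iff_dvd_sub]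
      exact (h1 l).symm
    have h3 : (x l - a l) / M % q = (w l : ℤ) := by
      rw [← congrFun h2 l, hkey, Int.toNat_of_nonneg (Int.emod_nonneg _ hq0.ne')]
    rw [ht, Int.mul_ediv_cancel_left _ hM0, Int.emod_def] at h3
    rw [eq_comm, ZMod.intCast_eq_intCast_iff_dvd_sub]
    exact ⟨t / q, by push_cast; linear_combination ht + (M : ℤ) * h3⟩
  · obtain ⟨c, hc⟩ := (ZMod.intCast_eq_intCast_iff_dvd_sub _ _ _).1 (h l).symm
    rw [eq_comm, ZMod.intCast_eq_intCast_iff_dvd_sub]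
    exact ⟨(w l : ℤ) + q * c, by push_cast at hc; linear_combination hc⟩
  · obtain ⟨c, hc⟩ := (ZMod.intCast_eq_intCast_iff_dvd_sub _ _ _).1 (h l).symm
    have h3 : x l - a l = (M : ℤ) * ((w l : ℤ) + q * c) := by
      push_cast at hc; linear_combination hc
    rw [hkey]
    simp only [h3, Int.mul_ediv_cancel_left _ hM0, Int.add_mul_emod_self_left]
    rw [Int.emod_eq_of_lt (Int.natCast_nonneg _) (Int.ofNat_lt.2 (mem_residueBox.1 hw l)),
      Int.toNat_natCast]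

/-- **The main term near a fraction**, in a box and a class. -/
theorem exists_class_major_approx {m : ℕ} (hF : ∀ i, (F i).IsHomogeneous (m + 2)) {M : ℕ}
    (hM : 1 ≤ M) (a : Fin n → ℤ) :
    ∃ C : ℝ, 0 < C ∧ ∀ (P q : ℕ) (u v : Fin n → ℝ) (b : Fin r → ℤ) (β : Fin r → ℝ),
      InUnitBox u v → 1 ≤ P → 1 ≤ q →
      ‖classSum F M a P u v (fun i => (b i : ℝ) / q + β i) -
          sysCompleteSum (classShift F M a) q b / (q : ℂ) ^ n / (M : ℂ) ^ n *
            ((P : ℂ) ^ n * boxIntegral F u v (((P : ℝ) ^ (m + 2)) • β))‖ ≤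
        C * q * (P : ℝ) ^ (n - 1) * (1 + (P : ℝ) ^ (m + 2) * ‖β‖) := by
  classical
  obtain ⟨C, hC, hcos⟩ := exists_coset_sum F hF
  have hMr : (1 : ℝ) ≤ M := by exact_mod_cast hM
  refine ⟨(C + 3 ^ n + 2 ^ n) * M, by positivity, fun P q u v b β huv hP hq => ?_⟩
  have hP0 : (1 : ℝ) ≤ P := by exact_mod_cast hP
  have hq0 : (1 : ℝ) ≤ q := by exact_mod_cast hq
  obtain ⟨I, hI⟩ : ∃ I, I = boxIntegral F u v (((P : ℝ) ^ (m + 2)) • β) := ⟨_, rfl⟩
  rw [← hI]
  obtain ⟨Q, hQ⟩ : ∃ Q, Q = q * M := ⟨_, rfl⟩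
  have hQ1 : 1 ≤ Q := hQ ▸ Nat.mul_pos hq hM
  have hQr : (Q : ℝ) = q * M := by rw [hQ]; push_cast; rfl
  have hX : 0 ≤ (q : ℝ) * M * (P : ℝ) ^ (n - 1) * ((P : ℝ) ^ (m + 2) * ‖β‖) := by positivity
  have hX1 : 0 ≤ (q : ℝ) * M * (P : ℝ) ^ (n - 1) := by positivity
  rcases Nat.lt_or_ge P Q with hbig | hQP
  · refine (norm_sub_le _ _).trans ?_
    have h1 : ‖classSum F M a P u v fun i => (b i : ℝ) / q + β i‖ ≤ 3 ^ n * (P : ℝ) ^ n := by
      refine ((sysWeylBound_classSum F (m := m) (fun i => (hF i).totalDegree_le) hM hP a huv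
        _).1).trans ?_
      rw [← mul_pow]
      exact pow_le_pow_left₀ (by positivity) (by linarith) n
    have h2 : ‖sysCompleteSum (classShift F M a) q b / (q : ℂ) ^ n / (M : ℂ) ^ n *
        ((P : ℂ) ^ n * I)‖ ≤ 2 ^ n * (P : ℝ) ^ n := by
      rw [norm_mul, norm_div, norm_div, norm_mul, norm_pow, norm_pow, norm_pow,
        Complex.norm_natCast, Complex.norm_natCast, Complex.norm_natCast]
      refine (mul_le_of_le_one_left (by positivity) (div_le_one_of_le₀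
        (((div_le_one (by positivity)).2 (norm_sysCompleteSum_le _ _ _)).trans
          (one_le_pow₀ hMr)) (by positivity))).trans ?_
      rw [mul_comm (2 ^ n : ℝ), hI]
      exact mul_le_mul_of_nonneg_left (norm_boxIntegral_le F huv _) (by positivity)
    have hPn : (P : ℝ) ^ n ≤ (q : ℝ) * M * (P : ℝ) ^ (n - 1) := by
      rcases Nat.eq_zero_or_pos n with hn | hn
      · subst hn; simpa using one_le_mul_of_one_le_of_one_le hq0 hMr
      · obtain ⟨k, rfl⟩ : ∃ k, n = k + 1 := ⟨n - 1, by omega⟩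
        rw [Nat.add_sub_cancel, pow_succ', ← hQr]
        exact mul_le_mul_of_nonneg_right (Nat.cast_le.2 hbig.le) (by positivity)
    refine (add_le_add h1 h2).trans ?_
    nlinarith [mul_le_mul_of_nonneg_left hPn (show (0 : ℝ) ≤ 3 ^ n + 2 ^ n by positivity),
      mul_nonneg hC.le hX1, mul_nonneg (show 0 ≤ C + 3 ^ n + 2 ^ n by positivity) hX]
  have hQn : (Q : ℂ) ^ n ≠ 0 := pow_ne_zero _ (Nat.cast_ne_zero.2 (by omega))
  obtain ⟨T, hT⟩ : ∃ T : (Fin n → ℕ) → ℂ, T = fun w => ∑ x ∈ (realBox P u v).filter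
      (fun x => ∀ l, (x l : ZMod Q) = ((a l + M * (w l : ℤ) : ℤ) : ZMod Q)),
        eAdd (∑ i, β i * (eval x (F i) : ℤ)) := ⟨_, rfl⟩
  have hsplit : classSum F M a P u v (fun i => (b i : ℝ) / q + β i) = ∑ w ∈ residueBox n q,
      eAdd (((∑ i, b i * eval (fun l => (w l : ℤ)) (classShift F M a i) : ℤ) : ℝ) / q) * T w := by
    rw [classSum, sum_classBox_eq hM hq, ← hQ]
    refine sum_congr rfl fun w _ => ?_
    rw [hT, mul_sum]
    refine sum_congr rfl fun x hx => ?_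
    rw [show (∑ i, ((b i : ℝ) / q + β i) * (eval x (F i) : ℤ)) =
      ((∑ i, b i * eval x (F i) : ℤ) : ℝ) / q + ∑ i, β i * (eval x (F i) : ℤ) by
        push_cast; rw [sum_div, ← sum_add_distrib]; exact sum_congr rfl fun i _ => by ring,
      eAdd_add, eAdd_sys_congr F hq b (y := fun l => a l + (M : ℤ) * (w l : ℤ)) fun l => by
        have h := congrArg (ZMod.castHom (hQ ▸ dvd_mul_right q M) (ZMod q)) ((mem_filter.1 hx).2 l)
        rwa [map_intCast, map_intCast] at h]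
    simp only [eval_classShift]
  have hTw : ∀ w, ‖(Q : ℂ) ^ n * T w - (P : ℂ) ^ n * I‖ ≤
      C * Q * (P : ℝ) ^ (n - 1) * (1 + (P : ℝ) ^ (m + 2) * ‖β‖) := by
    intro w
    have hzc : ∀ l, (((((a l + M * (w l : ℤ)) % (Q : ℤ)).toNat : ℕ)) : ZMod Q) =
        ((a l + M * (w l : ℤ) : ℤ) : ZMod Q) := fun l => by
      rw [← Int.cast_natCast, Int.toNat_of_nonneg (Int.emod_nonneg _ (by omega)),
        ZMod.intCast_mod]
    have h := hcos P Q (fun l => ((a l + M * (w l : ℤ)) % (Q : ℤ)).toNat) u v β huv hQ1 hQP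
      fun l => by
        rw [Int.toNat_lt (Int.emod_nonneg _ (by omega))]
        exact Int.emod_lt_of_pos _ (by omega)
    rw [← hI] at h
    simp only [hzc] at h
    rwa [hT]
  have e : classSum F M a P u v (fun i => (b i : ℝ) / q + β i) -
      sysCompleteSum (classShift F M a) q b / (q : ℂ) ^ n / (M : ℂ) ^ n * ((P : ℂ) ^ n * I) =
      (∑ w ∈ residueBox n q,
        eAdd (((∑ i, b i * eval (fun l => (w l : ℤ)) (classShift F M a i) : ℤ) : ℝ) / q) *
          ((Q : ℂ) ^ n * T w - (P : ℂ) ^ n * I)) / (Q : ℂ) ^ n := by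
    rw [hsplit, eq_div_iff hQn, sysCompleteSum, sub_mul, sum_mul]
    simp only [mul_sub, sum_sub_distrib, ← sum_mul]
    refine congrArg₂ _ ?_ ?_
    · rw [sum_mul]
      exact sum_congr rfl fun w _ => by ring
    rw [hQ, Nat.cast_mul, mul_pow]
    have : (q : ℂ) ≠ 0 := Nat.cast_ne_zero.2 (by omega)
    have : (M : ℂ) ≠ 0 := Nat.cast_ne_zero.2 (by omega)
    field_simp
  rw [e, norm_div, norm_pow, Complex.norm_natCast, div_le_iff₀ (by positivity)]
  refine (norm_sum_le _ _).trans ((sum_le_card_nsmul _ _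
    (C * Q * (P : ℝ) ^ (n - 1) * (1 + (P : ℝ) ^ (m + 2) * ‖β‖)) fun w _ => ?_).trans ?_)
  · rw [norm_mul, norm_eAdd, one_mul]
    exact hTw w
  · rw [nsmul_eq_mul, card_residueBox, Nat.cast_pow]
    have hY : 0 ≤ C * Q * (P : ℝ) ^ (n - 1) * (1 + (P : ℝ) ^ (m + 2) * ‖β‖) := by positivity
    refine (mul_le_mul_of_nonneg_right (pow_le_pow_left₀ (by positivity)
      (show (q : ℝ) ≤ Q by rw [hQr]; exact le_mul_of_one_le_right (by linarith) hMr) n)
        hY).trans ?_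
    rw [mul_comm ((Q : ℝ) ^ n)]
    refine mul_le_mul_of_nonneg_right ?_ (by positivity)
    calc C * Q * (P : ℝ) ^ (n - 1) * (1 + (P : ℝ) ^ (m + 2) * ‖β‖)
        = C * M * q * (P : ℝ) ^ (n - 1) * (1 + (P : ℝ) ^ (m + 2) * ‖β‖) := by rw [hQr]; ring
      _ ≤ _ := by
          gcongr
          linarith [pow_pos (show (0 : ℝ) < 3 by norm_num) n, pow_pos (two_pos : (0 : ℝ) < 2) n]

/-- **The decay of the integral over a box.** -/
theorem exists_boxIntegral_decay {m s : ℕ} (hr : 0 < r) (hF : ∀ i, (F i).IsHomogeneous (m + 2))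
    (hs : SystemSingularDimLE F s) (hn : s + r * (r + 1) * (m + 1) * 2 ^ (m + 1) < n)
    {u v : Fin n → ℝ} (huv : InUnitBox u v) :
    ∃ C : ℝ, 0 < C ∧ ∀ γ : Fin r → ℝ, ‖boxIntegral F u v γ‖ * (1 + ‖γ‖) ^ (r + 1) ≤ C := by
  obtain ⟨C, hC, happ⟩ := exists_class_major_approx F hF le_rfl (0 : Fin n → ℤ)
  have h1 : residueBox n 1 = {fun _ => 0} := by ext x; simp [mem_residueBox, funext_iff]
  refine exists_decay_of_sums F hr hF hs hn _ (fun P β => classSum F 1 0 P u v β)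
    (norm_boxIntegral_le F huv)
    (fun P β hP => sysWeylBound_classSum F (fun i => (hF i).totalDegree_le) le_rfl hP 0 huv β) hC
    fun P β hP => ?_
  simpa [sysCompleteSum, h1] using happ P 1 u v 0 β huv hP le_rfl

end FA.WeakApproximation
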