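import Fermat.Agent.FormSystems.Major
import Fermat.Agent.FormSystems.SeriesPositive
import Fermat.Agent.WeakApproximation.Major

/-!
# Birch's theorem in a box and a congruence class

If `n - s > r (r + 1) (d - 1) 2 ^ (d - 1)` the common zeros in `P [u, v]` congruent to `a` modulo `M`
number `𝔖 (a, M) J (u, v) P ^ (n - r d)` up to `O (P ^ (n - r d - δ))`: the singular series is
`M ^ (-n)` times that of the system `F (a + M w)`, the singular integral that of the box.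
-/

set_option autoImplicit false

noncomputable section

namespace FA.WeakApproximation

open Finset FA.ThreePrimes FA.WaringAsymptotic FA.CubicForms FA.FormsManyVariables FA.FormSystems
  MvPolynomial MeasureTheory
open scoped Real ComplexConjugate

variable {n r : ℕ} (F : Fin r → MvPolynomial (Fin n) ℤ)

/-- The singular series of a class. -/
def classSeries (M : ℕ) (a : Fin n → ℤ) : ℝ :=
  sysRepSeries (classShift F M a) 0 / (M : ℝ) ^ n

/-- The singular integral of a box. -/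
def boxSysDensity (u v : Fin n → ℝ) : ℝ := (∫ γ, boxIntegral F u v γ).re

theorem boxIntegral_neg (u v : Fin n → ℝ) (γ : Fin r → ℝ) :
    boxIntegral F u v (-γ) = conj (boxIntegral F u v γ) := by
  rw [boxIntegral, boxIntegral, ← integral_conj]
  simp [sysPhase, conj_eAdd]

theorem integral_boxIntegral_eq (u v : Fin n → ℝ) :
    ∫ γ, boxIntegral F u v γ = (boxSysDensity F u v : ℂ) := by
  refine Complex.ext (by rw [boxSysDensity, Complex.ofReal_re]) ?_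
  rw [Complex.ofReal_im]
  refine Complex.conj_eq_iff_im.1 ?_
  rw [← integral_conj]
  refine Eq.trans (integral_congr_ae (Filter.Eventually.of_forall fun γ => ?_))
    (integral_neg_eq_self (boxIntegral F u v) volume)
  exact (boxIntegral_neg F u v γ).symm

theorem classSum_congr (M : ℕ) (a : Fin n → ℤ) (P : ℕ) (u v : Fin n → ℝ) {α β : Fin r → ℝ}
    {z : Fin r → ℤ} (h : ∀ i, α i = β i + z i) :
    classSum F M a P u v α = classSum F M a P u v β := by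
  refine sum_congr rfl fun x _ => ?_
  simp only [h, add_mul, sum_add_distrib, ← Int.cast_mul, ← Int.cast_sum]
  rw [eAdd_add, eAdd_intCast, mul_one]

theorem countClassZeros_le (M : ℕ) (a : Fin n → ℤ) (P : ℕ) {u v : Fin n → ℝ}
    (huv : InUnitBox u v) : (countClassZeros F M a P u v : ℝ) ≤ (2 * (P : ℝ) + 1) ^ n := by
  classical
  refine (Nat.cast_le.2 (card_le_card ((filter_subset _ _).trans ((filter_subset _ _).trans
    (realBox_subset_cbox huv))))).trans (le_of_eq ?_)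
  rw [card_cbox]; push_cast; rfl

theorem sum_grid_classSum {m : ℕ} (hF : ∀ i, (F i).IsHomogeneous (m + 2)) (M : ℕ) (a : Fin n → ℤ)
    {P : ℕ} {u v : Fin n → ℝ} (huv : InUnitBox u v) (hP : sysSize F < P) :
    ∑ h ∈ Fintype.piFinset fun _ : Fin r => range (P ^ (m + 3)),
        classSum F M a P u v (fun i => (h i : ℝ) / ((P ^ (m + 3) : ℕ) : ℝ)) =
      ((P ^ (m + 3) : ℕ) : ℂ) ^ r * (countClassZeros F M a P u v : ℂ) := by
  classical
  rw [countClassZeros, card_filter, Nat.cast_sum, mul_sum]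
  simp only [classSum]
  rw [sum_comm]
  refine sum_congr rfl fun x hx => ?_
  have e : ∀ h : Fin r → ℕ,
      eAdd (∑ i, (h i : ℝ) / ((P ^ (m + 3) : ℕ) : ℝ) * (eval x (F i) : ℤ)) =
        ∏ i, eAdd (((eval x (F i) : ℤ) : ℝ) * h i / ((P ^ (m + 3) : ℕ) : ℝ)) := fun h => by
    rw [← eAdd_sum]
    exact congrArg _ (sum_congr rfl fun i _ => by ring)
  simp only [e]
  rw [← prod_univ_sum (fun _ : Fin r => range (P ^ (m + 3)))
    fun i h => eAdd (((eval x (F i) : ℤ) : ℝ) * h / ((P ^ (m + 3) : ℕ) : ℝ))]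
  simp only [sum_eAdd_grid (pow_pos (by omega : 0 < P) (m + 3))]
  have hiff : ∀ i, ((P ^ (m + 3) : ℕ) : ℤ) ∣ eval x (F i) ↔ eval x (F i) = 0 := fun i => by
    refine ⟨fun hd => Int.eq_zero_of_abs_lt_dvd hd ?_, fun h => h ▸ dvd_zero _⟩
    refine (abs_eval_le (F i) (hF i) (mem_cbox.1 (realBox_subset_cbox huv
      (mem_filter.1 hx).1))).trans_lt ?_
    push_cast
    rw [pow_succ' _ (m + 2)]
    refine mul_lt_mul_of_pos_right ?_ (pow_pos (Int.natCast_pos.2 (by omega)) _)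
    have : formSize (F i) ≤ sysSize F :=
      single_le_sum (f := fun i => formSize (F i)) (fun _ _ => Nat.zero_le _) (mem_univ i)
    omega
  simp only [hiff]
  by_cases hall : ∀ i, eval x (F i) = 0
  · simp [hall]
  · rw [if_neg hall, Nat.cast_zero, mul_zero]
    obtain ⟨i, hi⟩ := not_forall.1 hall
    exact prod_eq_zero (mem_univ i) (if_neg hi)

/-- **The complete sums of `F (a + M w)`.** -/
theorem exists_classShift_complete_le {m s : ℕ} (hr : 0 < r) (hF : ∀ i, (F i).IsHomogeneous (m + 2))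
    (hs : SystemSingularDimLE F s) (hn : s + r * (r + 1) * (m + 1) * 2 ^ (m + 1) < n) {M : ℕ}
    (hM : 1 ≤ M) (a : Fin n → ℤ) :
    ∃ C : ℝ, 0 < C ∧ ∀ (q : ℕ) (b : Fin r → ℤ), 1 ≤ q → IsPrimitiveFraction q b →
      ‖sysCompleteSum (classShift F M a) q b‖ / (q : ℝ) ^ n ≤
        C * (q : ℝ) ^ (-((r : ℝ) + 1 + sysSaving r m / 2)) := by
  obtain ⟨C₁, hC₁, happ⟩ := exists_class_major_approx F hF hM a
  obtain ⟨C, hC, hcomp⟩ := exists_weylBound_complete F hr hF hs hn C₁ hC₁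
  have hMr : (1 : ℝ) ≤ M := by exact_mod_cast hM
  refine ⟨C * (M : ℝ) ^ n, by positivity, fun q b hq hco => ?_⟩
  obtain ⟨u, hu⟩ : ∃ u : Fin n → ℝ, u = fun _ => -1 := ⟨_, rfl⟩
  obtain ⟨v, hv⟩ : ∃ v : Fin n → ℝ, v = fun _ => 1 := ⟨_, rfl⟩
  have huv : InUnitBox u v := fun l => ⟨(hu ▸ le_rfl), (hv ▸ le_rfl)⟩
  obtain ⟨P, hP⟩ : ∃ P, P = q ^ (r + 4) := ⟨_, rfl⟩
  have hP1 : 1 ≤ P := hP ▸ Nat.one_le_pow _ _ hq
  have h1 := happ P q u v b 0 huv hP1 hq
  simp only [norm_zero, mul_zero, add_zero, mul_one, Pi.zero_apply, smul_zero] at h1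
  obtain ⟨T, hT⟩ : ∃ T : ℝ, T = ‖sysCompleteSum (classShift F M a) q b‖ / (q : ℝ) ^ n := ⟨_, rfl⟩
  rw [← hT]
  have hT0 : 0 ≤ T := hT ▸ by positivity
  have hI0 : boxIntegral F u v 0 = ((2 ^ n : ℝ) : ℂ) := by
    have e : boxIntegral F u v 0 = ∫ _ in symBox n 1, (1 : ℂ) := by
      simp [boxIntegral, sysPhase, symBox, hu, hv]
    rw [e, setIntegral_const, volume_real_symBox_one, Complex.real_smul, mul_one]
  rw [hI0, norm_sub_rev] at h1
  have h2 := (norm_sub_norm_le _ _).trans h1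
  rw [norm_mul, norm_div, norm_div, norm_mul, norm_pow, norm_pow, norm_pow, Complex.norm_natCast,
    Complex.norm_natCast, Complex.norm_natCast, ← hT, Complex.norm_real, Real.norm_eq_abs,
    abs_of_pos (pow_pos (two_pos : (0 : ℝ) < 2) n)] at h2
  have h3 : T / (M : ℝ) ^ n * (P : ℝ) ^ n ≤ T / (M : ℝ) ^ n * ((P : ℝ) ^ n * 2 ^ n) :=
    mul_le_mul_of_nonneg_left (le_mul_of_one_le_right (by positivity) (one_le_pow₀ one_le_two))
      (by positivity)
  have h4 := hcomp P q b (T / (M : ℝ) ^ n) _ hP hq hco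
    (sysWeylBound_classSum F (fun i => (hF i).totalDegree_le) hM hP1 a huv _) (by linarith)
  rw [div_le_iff₀ (by positivity)] at h4
  linarith

/-- **The tail of the series of a class.** -/
theorem exists_classShift_tail {m s : ℕ} (hr : 0 < r) (hF : ∀ i, (F i).IsHomogeneous (m + 2))
    (hs : SystemSingularDimLE F s) (hn : s + r * (r + 1) * (m + 1) * 2 ^ (m + 1) < n) {M : ℕ}
    (hM : 1 ≤ M) (a : Fin n → ℤ) :
    ∃ C : ℝ, 0 < C ∧ Summable (fun q => ‖sysRepTerm (classShift F M a) 0 q‖) ∧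
      ∑' q, ‖sysRepTerm (classShift F M a) 0 q‖ ≤ C ∧
      ∀ W : ℕ, 1 ≤ W → ‖∑' q, sysRepTerm (classShift F M a) 0 q -
          ∑ q ∈ Icc 1 W, sysRepTerm (classShift F M a) 0 q‖ ≤
        C * (W : ℝ) ^ (-(sysSaving r m / 4)) := by
  obtain ⟨C, hC, hle⟩ := exists_classShift_complete_le F hr hF hs hn hM a
  obtain ⟨C', hC', h⟩ := exists_sysRepTerm_tail_of_le (classShift F M a) hr hC hle
  exact ⟨C', hC', h 0⟩

/-- **The sum over the major arcs.** -/
theorem exists_class_major_sum {m : ℕ} (hF : ∀ i, (F i).IsHomogeneous (m + 2)) {M : ℕ}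
    (hM : 1 ≤ M) (a : Fin n → ℤ) {u v : Fin n → ℝ} (huv : InUnitBox u v) :
    ∃ C : ℝ, 0 < C ∧ ∀ P W : ℕ, 1 ≤ W → 6 ≤ P → W ^ 4 ≤ P →
    ‖∑ h ∈ sysArcs r (m + 2) P W,
        classSum F M a P u v (fun i => (h i : ℝ) / ((P ^ (m + 3) : ℕ) : ℝ)) -
      (∑ q ∈ Icc 1 W, sysRepTerm (classShift F M a) 0 q) / (M : ℂ) ^ n *
        ((P : ℂ) ^ n * ∑ o ∈ cbox r (W * P + 1),
          boxIntegral F u v ((P : ℝ)⁻¹ • fun i => (o i : ℝ)))‖ ≤
      C * (W : ℝ) ^ (2 * r + 3) * (P : ℝ) ^ r * (P : ℝ) ^ (n - 1) := by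
  classical
  obtain ⟨C₁, hC₁, happ⟩ := exists_class_major_approx F hF hM a
  obtain ⟨K, hK⟩ : ∃ K : ℝ, K = 2 * π * sysSize F * 2 ^ n := ⟨_, rfl⟩
  have hK0 : 0 ≤ K := hK ▸ by positivity
  refine ⟨5 ^ r * (4 * C₁ + K + 1), by positivity, fun P W hW hP6 hW4 => ?_⟩
  have hP1 : 1 ≤ P := by omega
  have hP0 : (1 : ℝ) ≤ P := by exact_mod_cast hP1
  have hW0 : (1 : ℝ) ≤ W := by exact_mod_cast hW
  obtain ⟨H, hH⟩ : ∃ H, H = W * P + 1 := ⟨_, rfl⟩
  obtain ⟨M₀, hM₀⟩ : ∃ M₀ : ℝ, M₀ = ((P ^ (m + 3) : ℕ) : ℝ) := ⟨_, rfl⟩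
  have hM' : M₀ = (P : ℝ) ^ (m + 3) := by rw [hM₀]; push_cast; rfl
  have hM0 : 0 < M₀ := by rw [hM']; positivity
  have hMn : 0 < P ^ (m + 3) := pow_pos (by omega) _
  have hH2 : (2 * H + 1) * (W * W) < P ^ (m + 2 + 1) := by
    calc (2 * H + 1) * (W * W) ≤ (5 * (W * P)) * (W * W) := by
          refine Nat.mul_le_mul_right _ ?_
          rw [hH]
          have : 1 ≤ W * P := Nat.mul_pos (by omega) (by omega)
          omega
      _ = 5 * P * W ^ 3 := by ring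
      _ ≤ 5 * P * P :=
          Nat.mul_le_mul_left _ ((Nat.pow_le_pow_right hW (by norm_num : 3 ≤ 4)).trans hW4)
      _ < P * P * P := by
          refine Nat.mul_lt_mul_of_pos_right ?_ (by omega)
          exact Nat.mul_lt_mul_of_pos_right (by omega) (by omega)
      _ = P ^ 3 := by ring
      _ ≤ P ^ (m + 3) := Nat.pow_le_pow_right (by omega) (by omega)
  rw [sysArcs, ← hH, sum_image (injOn_sysArcPoint hP1 hW hH2), sum_product]
  have hser : (∑ q ∈ Icc 1 W, sysRepTerm (classShift F M a) 0 q) / (M : ℂ) ^ n =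
      ∑ z ∈ sysCentres r W, sysCompleteSum (classShift F M a) z.1 (fun i => (z.2 i : ℤ)) /
        (z.1 : ℂ) ^ n / (M : ℂ) ^ n := by
    rw [sum_div, sysCentres, sum_sigma]
    refine sum_congr rfl fun q _ => ?_
    rw [sysRepTerm_zero_rhs, sum_div]
  rw [hser, sum_mul, ← sum_sub_distrib]
  obtain ⟨E, hE⟩ : ∃ E : ℝ, E = (4 * C₁ + K + 1) * ((W : ℝ) ^ 2 * (P : ℝ) ^ (n - 1)) := ⟨_, rfl⟩
  refine (norm_sum_le _ _).trans ((sum_le_card_nsmul _ _ (((2 * H + 1 : ℕ) : ℝ) ^ r * E)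
    fun z hz => ?_).trans ?_)
  · rw [← mul_assoc, mul_sum, ← sum_sub_distrib]
    refine (norm_sum_le _ _).trans ((sum_le_card_nsmul _ _ E fun o ho => ?_).trans (le_of_eq ?_))
    · obtain ⟨hzI, hza⟩ := mem_sigma.1 hz
      obtain ⟨hq, hqW⟩ := mem_Icc.1 hzI
      obtain ⟨c, hc⟩ : ∃ c : Fin r → ℝ, c = fun i => (z.2 i : ℝ) / z.1 := ⟨_, rfl⟩
      obtain ⟨β, hβ⟩ : ∃ β : Fin r → ℝ,
          β = fun i => ((round (c i * M₀) : ℤ) + (o i : ℝ)) / M₀ - c i := ⟨_, rfl⟩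
      have hpt : ∀ i, ((sysArcPoint (P ^ (m + 2 + 1)) z o i : ℕ) : ℝ) / M₀ = c i + β i +
          ((-((round (c i * M₀) + o i) / ((P ^ (m + 3) : ℕ) : ℤ)) : ℤ) : ℝ) := by
        intro i
        have e : ((sysArcPoint (P ^ (m + 2 + 1)) z o i : ℕ) : ℤ) =
            (round (c i * M₀) + o i) % ((P ^ (m + 3) : ℕ) : ℤ) := by
          rw [sysArcPoint, arcPoint, centre, hc, hM₀, show m + 2 + 1 = m + 3 from rfl,
            Int.toNat_of_nonneg (Int.emod_nonneg _ (by exact_mod_cast hMn.ne'))]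
        have e' := congrArg (fun x : ℤ => (x : ℝ)) e
        simp only [Int.emod_def] at e'
        push_cast at e'
        rw [e', ← hM', hβ] at *
        push_cast
        field_simp
        ring
      have hd : ∀ i, |β i - (o i : ℝ) / M₀| ≤ 1 / (2 * M₀) := fun i => by
        rw [show β i - (o i : ℝ) / M₀ = ((round (c i * M₀) : ℤ) - c i * M₀) / M₀ by
          rw [hβ]; field_simp; ring, abs_div, abs_of_pos hM0, div_le_div_iff₀ hM0 (by positivity),
          abs_sub_comm]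
        nlinarith [abs_sub_round (c i * M₀)]
      have hγ : ‖((P : ℝ) ^ (m + 2)) • β - (P : ℝ)⁻¹ • fun i => (o i : ℝ)‖ ≤ 1 / P := by
        refine (pi_norm_le_iff_of_nonneg (by positivity)).2 fun i => ?_
        rw [Pi.sub_apply, Pi.smul_apply, Pi.smul_apply, smul_eq_mul, smul_eq_mul, Real.norm_eq_abs,
          show (P : ℝ) ^ (m + 2) * β i - (P : ℝ)⁻¹ * (o i : ℝ) =
            (P : ℝ) ^ (m + 2) * (β i - (o i : ℝ) / M₀) by rw [hM']; field_simp; ring,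
          abs_mul, abs_of_pos (by positivity : (0 : ℝ) < (P : ℝ) ^ (m + 2))]
        refine (mul_le_mul_of_nonneg_left ((hd i).trans (one_div_le_one_div_of_le hM0 (by linarith)))
          (by positivity)).trans (le_of_eq ?_)
        rw [hM']; field_simp; ring
      have hβW : (P : ℝ) ^ (m + 2) * ‖β‖ ≤ 3 * W := by
        have h1 : ‖β‖ ≤ ((H : ℝ) + 1) / M₀ := by
          refine (pi_norm_le_iff_of_nonneg (by positivity)).2 fun i => ?_
          rw [Real.norm_eq_abs]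
          have h2 := abs_sub_abs_le_abs_sub (β i) ((o i : ℝ) / M₀)
          have h3 : |(o i : ℝ) / M₀| ≤ (H : ℝ) / M₀ := by
            rw [abs_div, abs_of_pos hM0, ← Int.cast_abs]
            gcongr
            exact_mod_cast mem_cbox.1 ho i
          have h4 : 1 / (2 * M₀) ≤ 1 / M₀ := one_div_le_one_div_of_le hM0 (by linarith)
          rw [add_div]
          linarith [hd i]
        calc (P : ℝ) ^ (m + 2) * ‖β‖ ≤ (P : ℝ) ^ (m + 2) * (((H : ℝ) + 1) / M₀) := by gcongr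
          _ = ((H : ℝ) + 1) / P := by rw [hM']; field_simp; ring
          _ ≤ _ := by
              rw [div_le_iff₀ (by linarith), hH]
              push_cast
              nlinarith [one_le_mul_of_one_le_of_one_le hW0 hP0]
      have happ' := happ P z.1 u v (fun i => (z.2 i : ℤ)) β huv hP1 hq
      simp only [Int.cast_natCast] at happ'
      rw [show (fun i => (z.2 i : ℝ) / z.1 + β i) = fun i => c i + β i by rw [hc]] at happ'
      simp only [← hM₀]
      rw [classSum_congr F M a P u v (β := fun i => c i + β i) hpt]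
      refine (norm_sub_le_norm_sub_add_norm_sub _
        (sysCompleteSum (classShift F M a) z.1 (fun i => (z.2 i : ℤ)) / (z.1 : ℂ) ^ n /
          (M : ℂ) ^ n * ((P : ℂ) ^ n * boxIntegral F u v (((P : ℝ) ^ (m + 2)) • β))) _).trans ?_
      rw [mul_assoc _ ((P : ℂ) ^ n), ← mul_sub _ ((P : ℂ) ^ n * _), ← mul_sub ((P : ℂ) ^ n),
        norm_mul, norm_mul, norm_div, norm_div, norm_pow, norm_pow, norm_pow, Complex.norm_natCast,
        Complex.norm_natCast, Complex.norm_natCast]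
      have h1 : C₁ * (z.1 : ℝ) * (P : ℝ) ^ (n - 1) * (1 + (P : ℝ) ^ (m + 2) * ‖β‖) ≤
          4 * C₁ * ((W : ℝ) ^ 2 * (P : ℝ) ^ (n - 1)) := by
        calc C₁ * (z.1 : ℝ) * (P : ℝ) ^ (n - 1) * (1 + (P : ℝ) ^ (m + 2) * ‖β‖)
            ≤ C₁ * (W : ℝ) * (P : ℝ) ^ (n - 1) * (4 * W) := by
              gcongr
              linarith
          _ = _ := by ring
      have h2 : ‖sysCompleteSum (classShift F M a) z.1 (fun i => (z.2 i : ℤ))‖ / (z.1 : ℝ) ^ n /
          (M : ℝ) ^ n * ((P : ℝ) ^ n * ‖boxIntegral F u v (((P : ℝ) ^ (m + 2)) • β) -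
            boxIntegral F u v ((P : ℝ)⁻¹ • fun i => (o i : ℝ))‖) ≤
            K * ((W : ℝ) ^ 2 * (P : ℝ) ^ (n - 1)) := by
        refine (mul_le_of_le_one_left (by positivity) (div_le_one_of_le₀
          (((div_le_one (by positivity)).2 (norm_sysCompleteSum_le _ _ _)).trans
            (one_le_pow₀ (by exact_mod_cast hM))) (by positivity))).trans ?_
        refine (mul_le_mul_of_nonneg_left ((norm_boxIntegral_sub_le F hF huv _ _).trans
          (mul_le_mul_of_nonneg_left hγ (by positivity))) (by positivity)).trans ?_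
        rw [← hK, show (P : ℝ) ^ n * (K * (1 / P)) = K * ((P : ℝ) ^ n / P) by ring]
        refine mul_le_mul_of_nonneg_left ?_ hK0
        rw [div_le_iff₀ (by linarith)]
        calc (P : ℝ) ^ n ≤ (P : ℝ) ^ (n - 1 + 1) := pow_le_pow_right₀ hP0 (by omega)
          _ = 1 * (P : ℝ) ^ (n - 1) * P := by rw [pow_succ]; ring
          _ ≤ _ := by gcongr; exact one_le_pow₀ hW0
      refine (add_le_add (happ'.trans h1) h2).trans ?_
      rw [hE]
      have : 0 ≤ (W : ℝ) ^ 2 * (P : ℝ) ^ (n - 1) := by positivity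
      linarith
    · rw [nsmul_eq_mul, card_cbox, Nat.cast_pow]
  · rw [nsmul_eq_mul]
    have hcz : ((sysCentres r W).card : ℝ) ≤ (W : ℝ) ^ (r + 1) := by
      rw [sysCentres, card_sigma, Nat.cast_sum]
      refine (sum_le_card_nsmul _ _ ((W : ℝ) ^ r) fun q hq => ?_).trans (le_of_eq ?_)
      · exact_mod_cast (card_primResidues_le r q).trans (Nat.pow_le_pow_left (mem_Icc.1 hq).2 r)
      · rw [Nat.card_Icc, Nat.add_sub_cancel, nsmul_eq_mul, pow_succ']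
    have hH5 : ((2 * H + 1 : ℕ) : ℝ) ≤ 5 * ((W : ℝ) * P) := by
      rw [hH]; push_cast
      linarith [one_le_mul_of_one_le_of_one_le hW0 hP0]
    have hE0 : 0 ≤ E := by rw [hE]; positivity
    calc ((sysCentres r W).card : ℝ) * (((2 * H + 1 : ℕ) : ℝ) ^ r * E)
        ≤ (W : ℝ) ^ (r + 1) * ((5 * ((W : ℝ) * P)) ^ r * E) := by gcongr
      _ = _ := by rw [hE, mul_pow, mul_pow]; ring

/-- **The sum along an arc.** -/
theorem exists_box_arc_sum {m s : ℕ} (hr : 0 < r) (hF : ∀ i, (F i).IsHomogeneous (m + 2))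
    (hs : SystemSingularDimLE F s) (hn : s + r * (r + 1) * (m + 1) * 2 ^ (m + 1) < n)
    {u v : Fin n → ℝ} (huv : InUnitBox u v) :
    ∃ C : ℝ, 0 < C ∧ ∀ P W : ℕ, 1 ≤ P → 1 ≤ W →
      ‖∑ o ∈ cbox r (W * P + 1), boxIntegral F u v ((P : ℝ)⁻¹ • fun i => (o i : ℝ)) -
          (P : ℂ) ^ r * (boxSysDensity F u v : ℂ)‖ ≤
        C * ((W : ℝ) ^ (r + 1) * (P : ℝ) ^ r / P + (P : ℝ) ^ r * (W : ℝ) ^ (-(1 / 2) : ℝ)) := by
  obtain ⟨C₀, hC₀, hdec⟩ := exists_boxIntegral_decay F hr hF hs hn huv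
  obtain ⟨C₂, hC₂, htail⟩ := exists_tail_of_decay (r := r) hC₀
  obtain ⟨K, hK⟩ : ∃ K : ℝ, K = 2 * π * sysSize F * 2 ^ n := ⟨_, rfl⟩
  have hK0 : 0 ≤ K := hK ▸ by positivity
  refine ⟨4 ^ r * K + (r : ℝ) * 6 ^ r * 2 ^ n + C₂, by positivity, fun P W hP hW => ?_⟩
  obtain ⟨H, hH⟩ : ∃ H, H = W * P + 1 := ⟨_, rfl⟩
  rw [← hH]
  have hP0 : (1 : ℝ) ≤ P := by exact_mod_cast hP
  have hPpos : (0 : ℝ) < P := by linarith
  have hW0 : (1 : ℝ) ≤ W := by exact_mod_cast hW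
  have hWP : (1 : ℝ) ≤ W * P := one_le_mul_of_one_le_of_one_le hW0 hP0
  have hH' : (H : ℝ) = W * P + 1 := by rw [hH]; push_cast; rfl
  obtain ⟨g, hg⟩ : ∃ g : (Fin r → ℝ) → ℂ,
      g = fun y => boxIntegral F u v ((P : ℝ)⁻¹ • y) := ⟨_, rfl⟩
  have hgK : ∀ x y : Fin r → ℝ, x ∈ symBox r H → y ∈ symBox r H →
      (∀ i, |x i - y i| ≤ 1) → ‖g x - g y‖ ≤ K / P := by
    intro x y _ _ hxy
    rw [hg]
    refine (norm_boxIntegral_sub_le F hF huv _ _).trans ?_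
    rw [← hK, ← smul_sub, norm_smul, norm_inv, Real.norm_natCast, div_eq_mul_inv]
    refine mul_le_mul_of_nonneg_left (mul_le_of_le_one_right (by positivity) ?_) hK0
    exact (pi_norm_le_iff_of_nonneg zero_le_one).2 fun i => by
      rw [Pi.sub_apply, Real.norm_eq_abs]; exact hxy i
  have hR := norm_cube_sum_sub_integral_le g (hg ▸ (continuous_boxIntegral F hF huv).comp
    (continuous_const_smul _)) (show 1 ≤ H by omega) hgK (B := 2 ^ n) fun y => by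
      rw [hg]; exact norm_boxIntegral_le F huv _
  have hscale : ∫ y in symBox r H, g y =
      (P : ℂ) ^ r * ∫ γ in symBox r ((H : ℝ) / P), boxIntegral F u v γ := by
    rw [show symBox r (H : ℝ) = symBox r ((P : ℝ) * ((H : ℝ) / P)) by
      rw [mul_div_cancel₀ _ hPpos.ne'], ← setIntegral_symBox_smul g hPpos, Complex.ofReal_natCast]
    congr 1
    refine setIntegral_congr_fun measurableSet_Icc fun γ _ => ?_
    rw [hg]
    simp only [smul_smul, inv_mul_cancel₀ hPpos.ne', one_smul]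
  rw [hscale] at hR
  have hfull := htail _ (continuous_boxIntegral F hF huv) hdec W ((H : ℝ) / P) hW
    (by rw [le_div_iff₀ hPpos]; linarith)
  rw [integral_boxIntegral_eq] at hfull
  rw [hg] at hR
  refine (norm_sub_le_norm_sub_add_norm_sub _
    ((P : ℂ) ^ r * ∫ γ in symBox r ((H : ℝ) / P), boxIntegral F u v γ) _).trans ?_
  rw [← mul_sub _ (∫ γ in symBox r ((H : ℝ) / P), boxIntegral F u v γ), norm_mul, norm_pow,
    Complex.norm_natCast]
  refine (add_le_add hR (mul_le_mul_of_nonneg_left hfull (by positivity))).trans ?_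
  obtain ⟨Y, hY⟩ : ∃ Y, Y = (W : ℝ) ^ (r + 1) * (P : ℝ) ^ r / P := ⟨_, rfl⟩
  rw [← hY]
  have hH2 : (H : ℝ) ≤ 2 * (W * P) := by linarith
  have e1 : 2 ^ r * (H : ℝ) ^ r * (K / P) ≤ 4 ^ r * K * Y := by
    calc 2 ^ r * (H : ℝ) ^ r * (K / P) ≤ 2 ^ r * (2 * (W * P)) ^ r * (K / P) := by gcongr
      _ = 4 ^ r * K * ((W : ℝ) ^ r * (P : ℝ) ^ r / P) := by
          rw [show (4 : ℝ) = 2 * 2 by norm_num, mul_pow, mul_pow, mul_pow]
          field_simp
      _ ≤ _ := by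
          rw [hY]; gcongr
          exacts [Nat.le_succ r]
  have e2 : (r : ℝ) * 3 ^ r * (H : ℝ) ^ (r - 1) * 2 ^ n ≤ (r : ℝ) * 6 ^ r * 2 ^ n * Y := by
    have h2 : (H : ℝ) ^ (r - 1) * P ≤ 2 ^ r * ((W : ℝ) ^ (r + 1) * (P : ℝ) ^ r) := by
      calc (H : ℝ) ^ (r - 1) * P ≤ (2 * (W * P)) ^ (r - 1) * (2 * (W * P)) := by
            gcongr
            nlinarith
        _ = (2 * (W * P)) ^ r := by rw [← pow_succ, Nat.sub_add_cancel hr]
        _ = 2 ^ r * ((W : ℝ) ^ r * (P : ℝ) ^ r) := by rw [mul_pow, mul_pow]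
        _ ≤ _ := by
            gcongr
            exacts [Nat.le_succ r]
    rw [← le_div_iff₀ hPpos, mul_div_assoc, ← hY] at h2
    rw [show (6 : ℝ) = 3 * 2 by norm_num, mul_pow]
    have h3 := mul_le_mul_of_nonneg_left h2
      (show (0 : ℝ) ≤ (r : ℝ) * 3 ^ r * 2 ^ n by positivity)
    linarith
  have hY0 : 0 ≤ Y := hY ▸ by positivity
  have hX : 0 ≤ (P : ℝ) ^ r * (W : ℝ) ^ (-(1 / 2) : ℝ) := by positivity
  nlinarith [mul_nonneg hC₂.le hY0,
    mul_nonneg (show 0 ≤ 4 ^ r * K + (r : ℝ) * 6 ^ r * 2 ^ n by positivity) hX]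

/-- **Birch's theorem in a box of `[-1, 1] ^ n` and a class.** -/
theorem exists_class_asymptotic {m s : ℕ} (hr : 0 < r) (hF : ∀ i, (F i).IsHomogeneous (m + 2))
    (hs : SystemSingularDimLE F s) (hn : s + r * (r + 1) * (m + 1) * 2 ^ (m + 1) < n) {M : ℕ}
    (hM : 1 ≤ M) (a : Fin n → ℤ) {u v : Fin n → ℝ} (huv : InUnitBox u v) :
    ∃ δ C : ℝ, 0 < δ ∧ 0 < C ∧ ∀ P : ℕ, 1 ≤ P →
      |(countClassZeros F M a P u v : ℝ) - classSeries F M a * boxSysDensity F u v *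
          (P : ℝ) ^ (n - r * (m + 2))| ≤ C * (P : ℝ) ^ (((n - r * (m + 2) : ℕ) : ℝ) - δ) := by
  classical
  obtain ⟨C₆, hC₆, hsum, hT₀le, htail⟩ := exists_classShift_tail F hr hF hs hn hM a
  obtain ⟨C₃, hC₃, hminor⟩ := exists_weylBound_minor_sum F hr hF hs hn
  obtain ⟨C₄, hC₄, hmajor⟩ := exists_class_major_sum F hF hM a huv
  obtain ⟨C₅, hC₅, harc⟩ := exists_box_arc_sum F hr hF hs hn huv
  obtain ⟨e, he⟩ : ∃ e, e = sysSaving r m / 4 := ⟨_, rfl⟩
  have he0 : 0 < e := he ▸ by have := sysSaving_pos hr m; positivity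
  have he1 : e ≤ 1 / 4 := by have := sysSaving_le_one hr m; rw [he]; linarith
  rw [← he] at htail
  obtain ⟨η, hη⟩ : ∃ η : ℝ, η = 1 / (4 * ((r : ℝ) + 2)) := ⟨_, rfl⟩
  have hη0 : 0 < η := hη ▸ by positivity
  have hη1 : η ≤ 1 / 4 := by
    rw [hη, div_le_div_iff₀ (by positivity) (by norm_num)]
    linarith [(Nat.cast_nonneg r : (0 : ℝ) ≤ r)]
  obtain ⟨δ, hδ⟩ : ∃ δ : ℝ, δ = e * η / 2 := ⟨_, rfl⟩
  have hδ0 : 0 < δ := hδ ▸ by positivity
  have hδ1 : δ ≤ 1 / 2 := by rw [hδ]; nlinarith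
  obtain ⟨L₀, hL₀, hlog⟩ := exists_log_le (δ := δ / ((n : ℝ) + 1)) (by positivity)
  obtain ⟨J, hJ⟩ : ∃ J, J = boxSysDensity F u v := ⟨_, rfl⟩
  rw [← hJ] at harc ⊢
  obtain ⟨σ, hσ⟩ : ∃ σ : ℂ, σ = ∑' q, sysRepTerm (classShift F M a) 0 q := ⟨_, rfl⟩
  have hMr : (1 : ℝ) ≤ M := by exact_mod_cast hM
  have hMn : (1 : ℝ) ≤ (M : ℝ) ^ n := one_le_pow₀ hMr
  have hσle : ‖σ‖ ≤ C₆ := hσ ▸ (norm_tsum_le_tsum_norm hsum).trans hT₀le
  have hS : classSeries F M a = σ.re / (M : ℝ) ^ n := by rw [classSeries, sysRepSeries, hσ]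
  have hSle : |classSeries F M a * J| ≤ C₆ * |J| := by
    rw [abs_mul, hS, abs_div, abs_of_pos (by positivity : (0 : ℝ) < (M : ℝ) ^ n)]
    exact mul_le_mul_of_nonneg_right
      ((div_le_self (abs_nonneg _) hMn).trans ((Complex.abs_re_le_norm _).trans hσle)) (abs_nonneg _)
  obtain ⟨C₀, hC₀⟩ : ∃ C₀ : ℝ,
      C₀ = 2 * L₀ ^ (n + 1) * (C₃ + C₄ + 2 * C₆ * C₅ + C₆ * |J|) + 1 := ⟨_, rfl⟩
  obtain ⟨P₀, hP₀⟩ : ∃ P₀, P₀ = sysSize F + 6 := ⟨_, rfl⟩
  obtain ⟨d, hd⟩ : ∃ d, d = r * (m + 2) := ⟨_, rfl⟩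
  have hdn : d < n := by
    have h1 : m + 2 ≤ (r + 1) * (m + 1) :=
      le_trans (show m + 2 ≤ 2 * (m + 1) by omega) (Nat.mul_le_mul_right _ (by omega))
    have h2 : r * (m + 2) ≤ r * (r + 1) * (m + 1) * 2 ^ (m + 1) := by
      refine le_trans ?_ (Nat.le_mul_of_pos_right _ (Nat.two_pow_pos _))
      rw [mul_assoc]
      exact Nat.mul_le_mul_left r h1
    omega
  rw [← hd]
  refine ⟨δ, C₀ + (3 ^ n + C₆ * |J|) * (P₀ : ℝ) ^ (d + 1), hδ0,
    by rw [hC₀]; positivity, fun P hP => ?_⟩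
  have hP0 : (1 : ℝ) ≤ P := by exact_mod_cast hP
  have hP' : (0 : ℝ) < P := by linarith
  obtain ⟨ε, hε⟩ : ∃ ε : ℝ, ε = (P : ℝ) ^ (-δ) := ⟨_, rfl⟩
  have hε0 : 0 < ε := hε ▸ by positivity
  have hgoal : (P : ℝ) ^ (((n - d : ℕ) : ℝ) - δ) = (P : ℝ) ^ (n - d) * ε := by
    rw [hε, sub_eq_add_neg, Real.rpow_add hP', Real.rpow_natCast]
  rw [hgoal]
  rcases Nat.lt_or_ge P P₀ with hsmall | hbig
  · have h1 : |(countClassZeros F M a P u v : ℝ) - classSeries F M a * J * (P : ℝ) ^ (n - d)| ≤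
        (3 ^ n + C₆ * |J|) * (P : ℝ) ^ n := by
      refine (abs_sub _ _).trans ?_
      rw [Nat.abs_cast, abs_mul _ ((P : ℝ) ^ (n - d)), abs_pow, Nat.abs_cast, add_mul]
      refine add_le_add ((countClassZeros_le F M a P huv).trans ?_) (mul_le_mul hSle
        (pow_le_pow_right₀ hP0 (Nat.sub_le _ _)) (by positivity) (by positivity))
      rw [← mul_pow]
      exact pow_le_pow_left₀ (by positivity) (by linarith) n
    refine h1.trans ?_
    have h2 : (P : ℝ) ^ n ≤ (P₀ : ℝ) ^ (d + 1) * ((P : ℝ) ^ (n - d) * ε) := by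
      have h3 : (1 : ℝ) ≤ (P : ℝ) * ε := by
        rw [hε, mul_comm, ← Real.rpow_add_one hP'.ne']
        exact Real.one_le_rpow hP0 (by linarith)
      calc (P : ℝ) ^ n = (P : ℝ) ^ d * (P : ℝ) ^ (n - d) * 1 := by
            rw [← pow_add, mul_one, Nat.add_sub_cancel' hdn.le]
        _ ≤ (P : ℝ) ^ d * (P : ℝ) ^ (n - d) * ((P : ℝ) * ε) :=
            mul_le_mul_of_nonneg_left h3 (by positivity)
        _ = (P : ℝ) ^ (d + 1) * ((P : ℝ) ^ (n - d) * ε) := by ring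
        _ ≤ _ := mul_le_mul_of_nonneg_right
            (pow_le_pow_left₀ hP'.le (Nat.cast_le.2 hsmall.le) _) (by positivity)
    refine (mul_le_mul_of_nonneg_left h2 (by positivity)).trans ?_
    rw [← mul_assoc]
    refine mul_le_mul_of_nonneg_right (le_add_of_nonneg_left ?_) (by positivity)
    rw [hC₀]; positivity
  obtain ⟨W, hW⟩ : ∃ W, W = ⌊(P : ℝ) ^ η⌋₊ := ⟨_, rfl⟩
  have hW1 : 1 ≤ W := hW ▸ Nat.le_floor (by simpa using Real.one_le_rpow hP0 hη0.le)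
  have hW0 : (1 : ℝ) ≤ W := by exact_mod_cast hW1
  have hWle : (W : ℝ) ≤ (P : ℝ) ^ η := hW ▸ Nat.floor_le (by positivity)
  have hWge : (P : ℝ) ^ η ≤ 2 * W := by
    have h1 := Nat.lt_floor_add_one ((P : ℝ) ^ η)
    rw [← hW] at h1
    linarith
  have hWpow : ∀ k : ℕ, (W : ℝ) ^ k ≤ (P : ℝ) ^ (η * k) := fun k => by
    rw [Real.rpow_mul hP'.le, Real.rpow_natCast]
    exact pow_le_pow_left₀ (Nat.cast_nonneg _) hWle k
  have hW4 : W ^ 4 ≤ P := by
    have h4 := (hWpow 4).trans ((Real.rpow_le_rpow_of_exponent_le hP0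
      (show η * (4 : ℕ) ≤ 1 by push_cast; linarith)).trans (Real.rpow_one _).le)
    exact_mod_cast h4
  have hWP : W ≤ P := (Nat.le_self_pow four_ne_zero W).trans hW4
  have hL : (1 + Real.log P) ^ (n + 1) ≤ L₀ ^ (n + 1) * (P : ℝ) ^ δ := by
    refine (pow_le_pow_left₀ (by linarith [Real.log_nonneg hP0]) (hlog _ hP0) _).trans (le_of_eq ?_)
    rw [mul_pow, ← Real.rpow_natCast ((P : ℝ) ^ _) (n + 1), ← Real.rpow_mul hP'.le]
    congr 2
    push_cast
    field_simp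
  have hWe : (W : ℝ) ^ (-e) ≤ 2 * (P : ℝ) ^ (-(2 * δ)) := by
    have h1 := Real.rpow_le_rpow_of_nonpos (z := -e) (by positivity)
      (show (P : ℝ) ^ η / 2 ≤ W by linarith) (by linarith)
    refine h1.trans ?_
    rw [Real.div_rpow (by positivity) two_pos.le, Real.rpow_neg two_pos.le, div_inv_eq_mul,
      ← Real.rpow_mul hP'.le, mul_comm, show η * -e = -(2 * δ) by rw [hδ]; ring]
    refine mul_le_mul_of_nonneg_right ?_ (by positivity)
    exact (Real.rpow_le_rpow_of_exponent_le one_le_two (by linarith)).trans (Real.rpow_one 2).le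
  obtain ⟨Z, hZ⟩ : ∃ Z : ℝ, Z = 2 * L₀ ^ (n + 1) * ε := ⟨_, rfl⟩
  have hZ0 : 0 ≤ Z := hZ ▸ by positivity
  have hLW : (1 + Real.log P) ^ (n + 1) * (W : ℝ) ^ (-e) ≤ Z := by
    have hsplit : (P : ℝ) ^ δ * (P : ℝ) ^ (-(2 * δ)) = ε := by
      rw [hε, ← Real.rpow_add hP']; ring_nf
    calc (1 + Real.log P) ^ (n + 1) * (W : ℝ) ^ (-e)
        ≤ (L₀ ^ (n + 1) * (P : ℝ) ^ δ) * (2 * (P : ℝ) ^ (-(2 * δ))) := by gcongr
      _ = _ := by rw [hZ, ← hsplit]; ring
  have hWZ : (W : ℝ) ^ (-e) ≤ Z :=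
    le_trans (le_mul_of_one_le_left (by positivity)
      (one_le_pow₀ (by linarith [Real.log_nonneg hP0]))) hLW
  have hWhalf : (W : ℝ) ^ (-(1 / 2) : ℝ) ≤ Z :=
    (Real.rpow_le_rpow_of_exponent_le hW0 (by linarith)).trans hWZ
  have hεZ : ε ≤ Z := by
    rw [hZ]
    refine le_mul_of_one_le_left hε0.le ?_
    exact one_le_mul_of_one_le_of_one_le one_le_two (one_le_pow₀ hL₀)
  have hWbig : (W : ℝ) ^ (2 * r + 3) ≤ (P : ℝ) * Z := by
    refine le_trans ?_ (mul_le_mul_of_nonneg_left hεZ hP'.le)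
    refine (hWpow _).trans ((Real.rpow_le_rpow_of_exponent_le hP0 (?_ : _ ≤ 1 + -δ)).trans
      (le_of_eq (by rw [Real.rpow_add hP', Real.rpow_one, hε])))
    have : η * ((2 * r + 3 : ℕ) : ℝ) ≤ 1 / 2 := by
      rw [hη, div_mul_eq_mul_div, div_le_iff₀ (by positivity)]
      push_cast
      linarith
    linarith
  obtain ⟨X, hX⟩ : ∃ X, X = (P : ℝ) ^ (n + r) := ⟨_, rfl⟩
  have hX0 : 0 ≤ X := hX ▸ by positivity
  have hXn : (P : ℝ) * ((P : ℝ) ^ r * (P : ℝ) ^ (n - 1)) = X := by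
    rw [hX, ← pow_add, ← pow_succ']; congr 1; omega
  obtain ⟨f, hf⟩ : ∃ f : (Fin r → ℕ) → ℂ, f = fun h : Fin r → ℕ =>
      classSum F M a P u v (fun i => (h i : ℝ) / ((P ^ (m + 3) : ℕ) : ℝ)) := ⟨_, rfl⟩
  obtain ⟨G, hG⟩ : ∃ G, G = Fintype.piFinset fun _ : Fin r => range (P ^ (m + 3)) := ⟨_, rfl⟩
  have hsub : sysArcs r (m + 2) P W ⊆ G := by
    intro h hh
    obtain ⟨zo, -, rfl⟩ := mem_image.1 hh
    rw [hG]
    refine Fintype.mem_piFinset.2 fun i => ?_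
    rw [mem_range, sysArcPoint, arcPoint, Int.toNat_lt (Int.emod_nonneg _ (by positivity))]
    exact Int.emod_lt_of_pos _ (by positivity)
  have htot : ∑ h ∈ G \ sysArcs r (m + 2) P W, f h + ∑ h ∈ sysArcs r (m + 2) P W, f h =
      ((P ^ (m + 3) : ℕ) : ℂ) ^ r * (countClassZeros F M a P u v : ℂ) := by
    rw [sum_sdiff hsub, hf, hG]
    exact sum_grid_classSum F hF M a huv (by omega)
  obtain ⟨T, hT⟩ : ∃ T : ℂ, T = (∑ q ∈ Icc 1 W, sysRepTerm (classShift F M a) 0 q) / (M : ℂ) ^ n :=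
    ⟨_, rfl⟩
  obtain ⟨A, hA⟩ : ∃ A : ℂ, A = ∑ o ∈ cbox r (W * P + 1),
      boxIntegral F u v ((P : ℝ)⁻¹ • fun i => (o i : ℝ)) := ⟨_, rfl⟩
  have hnormdiv : ∀ w : ℂ, ‖w / (M : ℂ) ^ n‖ ≤ ‖w‖ := fun w => by
    rw [norm_div, norm_pow, Complex.norm_natCast]
    exact div_le_self (norm_nonneg _) hMn
  have hmin : ‖∑ h ∈ G \ sysArcs r (m + 2) P W, f h‖ ≤ C₃ * Z * X := by
    rw [hf, hG]
    refine (norm_sum_le _ _).trans ?_
    refine (hminor P W _ hP hW1 hWP fun h =>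
      sysWeylBound_classSum F (fun i => (hF i).totalDegree_le) hM hP a huv _).trans ?_
    rw [← hX, show C₃ * (1 + Real.log P) ^ (n + 1) * X * (W : ℝ) ^ (-sysSaving r m) =
      C₃ * ((1 + Real.log P) ^ (n + 1) * (W : ℝ) ^ (-sysSaving r m)) * X by ring]
    refine mul_le_mul_of_nonneg_right (mul_le_mul_of_nonneg_left (le_trans ?_ hLW) hC₃.le) hX0
    refine mul_le_mul_of_nonneg_left (Real.rpow_le_rpow_of_exponent_le hW0 ?_)
      (pow_nonneg (by linarith [Real.log_nonneg hP0]) _)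
    rw [he]; linarith [sysSaving_pos hr m]
  have hmaj : ‖∑ h ∈ sysArcs r (m + 2) P W, f h - T * ((P : ℂ) ^ n * A)‖ ≤ C₄ * Z * X := by
    rw [hf, hT, hA]
    refine (hmajor P W hW1 (by omega) hW4).trans ?_
    calc C₄ * (W : ℝ) ^ (2 * r + 3) * (P : ℝ) ^ r * (P : ℝ) ^ (n - 1)
        ≤ C₄ * ((P : ℝ) * Z) * (P : ℝ) ^ r * (P : ℝ) ^ (n - 1) := by gcongr
      _ = C₄ * Z * ((P : ℝ) * ((P : ℝ) ^ r * (P : ℝ) ^ (n - 1))) := by ring
      _ = _ := by rw [hXn]
  have hTA : ‖T * ((P : ℂ) ^ n * A) - T * ((P : ℂ) ^ (n + r) * J)‖ ≤ 2 * C₆ * C₅ * Z * X := by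
    rw [← mul_sub, norm_mul, show 2 * C₆ * C₅ * Z * X = C₆ * (2 * C₅ * Z * X) by ring]
    refine mul_le_mul ?_ ?_ (norm_nonneg _) hC₆.le
    · rw [hT]
      exact (hnormdiv _).trans
        (((norm_sum_le _ _).trans (hsum.sum_le_tsum _ fun q _ => norm_nonneg _)).trans hT₀le)
    rw [pow_add, mul_assoc, ← mul_sub, norm_mul, norm_pow, Complex.norm_natCast, hA]
    refine (mul_le_mul_of_nonneg_left (harc P W hP hW1) (by positivity)).trans ?_
    have h2 : (P : ℝ) ^ n * ((W : ℝ) ^ (r + 1) * (P : ℝ) ^ r / P) ≤ X * Z := by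
      calc (P : ℝ) ^ n * ((W : ℝ) ^ (r + 1) * (P : ℝ) ^ r / P)
          ≤ (P : ℝ) ^ n * ((P : ℝ) * Z * (P : ℝ) ^ r / P) := by
            gcongr
            exact (pow_le_pow_right₀ hW0 (by omega : r + 1 ≤ 2 * r + 3)).trans hWbig
        _ = _ := by rw [hX, pow_add]; field_simp
    have h3 : (P : ℝ) ^ n * ((P : ℝ) ^ r * (W : ℝ) ^ (-(1 / 2) : ℝ)) ≤ X * Z := by
      rw [← mul_assoc, ← pow_add, ← hX]
      exact mul_le_mul_of_nonneg_left hWhalf hX0
    nlinarith [mul_le_mul_of_nonneg_left (add_le_add h2 h3) hC₅.le]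
  have hTσ : ‖T * ((P : ℂ) ^ (n + r) * J) - σ / (M : ℂ) ^ n * ((P : ℂ) ^ (n + r) * J)‖ ≤
      C₆ * |J| * Z * X := by
    rw [← sub_mul, norm_mul, norm_mul, norm_pow, Complex.norm_natCast, Complex.norm_real,
      Real.norm_eq_abs, ← hX, norm_sub_rev, hσ, hT, ← sub_div,
      show C₆ * |J| * Z * X = C₆ * Z * (X * |J|) by ring]
    refine mul_le_mul_of_nonneg_right (((hnormdiv _).trans (htail W hW1)).trans ?_) (by positivity)
    exact mul_le_mul_of_nonneg_left hWZ hC₆.le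
  have hdiff : ‖((P ^ (m + 3) : ℕ) : ℂ) ^ r * (countClassZeros F M a P u v : ℂ) -
      σ / (M : ℂ) ^ n * ((P : ℂ) ^ (n + r) * J)‖ ≤
        (C₃ + C₄ + 2 * C₆ * C₅ + C₆ * |J|) * Z * X := by
    rw [← htot]
    refine le_trans (le_of_eq (congrArg norm (show _ = (∑ h ∈ G \ sysArcs r (m + 2) P W, f h) +
      ((∑ h ∈ sysArcs r (m + 2) P W, f h - T * ((P : ℂ) ^ n * A)) +
        ((T * ((P : ℂ) ^ n * A) - T * ((P : ℂ) ^ (n + r) * J)) +
          (T * ((P : ℂ) ^ (n + r) * J) - σ / (M : ℂ) ^ n * ((P : ℂ) ^ (n + r) * J)))) by ring))) ?_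
    refine (norm_add_le _ _).trans (le_of_le_of_eq (add_le_add hmin ((norm_add_le _ _).trans
      (add_le_add hmaj ((norm_add_le _ _).trans (add_le_add hTA hTσ))))) ?_)
    ring
  have hre := (Complex.abs_re_le_norm _).trans hdiff
  rw [show ((M : ℂ) ^ n) = (((M : ℝ) ^ n : ℝ) : ℂ) by push_cast; rfl, Complex.sub_re,
    ← Nat.cast_pow, ← Nat.cast_mul, Complex.natCast_re, ← Complex.ofReal_natCast,
    ← Complex.ofReal_pow, ← Complex.ofReal_mul, Complex.re_mul_ofReal, Complex.div_ofReal_re,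
    ← hS] at hre
  push_cast at hre
  have hM' : ((P : ℝ) ^ (m + 3)) ^ r * (P : ℝ) ^ (n - d) = X := by
    rw [hX, ← pow_mul, ← pow_add]
    congr 1
    rw [show (m + 3) * r = d + r by rw [hd]; ring]
    omega
  rw [show classSeries F M a * ((P : ℝ) ^ (n + r) * J) = (P : ℝ) ^ (n + r) *
    (classSeries F M a * J) by ring, ← hX, ← hM', mul_assoc (((P : ℝ) ^ (m + 3)) ^ r), ← mul_sub,
    abs_mul, abs_of_pos (by positivity : (0 : ℝ) < ((P : ℝ) ^ (m + 3)) ^ r),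
    mul_left_comm _ (((P : ℝ) ^ (m + 3)) ^ r), mul_comm ((P : ℝ) ^ (n - d))] at hre
  refine (le_of_mul_le_mul_left hre (by positivity)).trans ?_
  rw [hZ, hC₀]
  have h1 : 0 ≤ (3 ^ n + C₆ * |J|) * (P₀ : ℝ) ^ (d + 1) * ((P : ℝ) ^ (n - d) * ε) := by
    positivity
  have h2 : 0 ≤ (P : ℝ) ^ (n - d) * ε := by positivity
  linarith

theorem countClassZeros_scale (M : ℕ) (a : Fin n → ℤ) (P k : ℕ) (u v : Fin n → ℝ) :
    countClassZeros F M a (k * P) u v = countClassZeros F M a P ((k : ℝ) • u) ((k : ℝ) • v) := by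
  have e : realBox (k * P) u v = realBox P ((k : ℝ) • u) ((k : ℝ) • v) := by
    ext x
    simp only [mem_realBox, Nat.cast_mul, Pi.smul_apply, smul_eq_mul]
    exact forall_congr' fun l => by
      rw [mul_left_comm (P : ℝ) (k : ℝ), mul_left_comm (P : ℝ) (k : ℝ), mul_assoc, mul_assoc]
  rw [countClassZeros, countClassZeros, classBox, classBox, e]

theorem boxSysDensity_smul {d : ℕ} (hF : ∀ i, (F i).IsHomogeneous d) (hdn : r * d ≤ n) {k : ℝ}
    (hk : 0 < k) (u v : Fin n → ℝ) :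
    boxSysDensity F (k • u) (k • v) = k ^ (n - r * d) * boxSysDensity F u v := by
  have e : ∀ γ : Fin r → ℝ,
      boxIntegral F (k • u) (k • v) γ = (k : ℂ) ^ n * boxIntegral F u v ((k ^ d) • γ) := fun γ => by
    have h := setIntegral_Icc_affine (fun y => eAdd (sysPhase F γ y)) hk 0 u v
    simp only [zero_add] at h
    rw [boxIntegral, boxIntegral, ← h]
    congr 1
    refine setIntegral_congr_fun measurableSet_Icc fun y _ => congrArg _ ?_
    simp only [sysPhase, Pi.smul_apply, smul_eq_mul]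
    exact sum_congr rfl fun i _ => by rw [aeval_smul (F i) (hF i)]; ring
  rw [boxSysDensity, boxSysDensity, integral_congr_ae (Filter.Eventually.of_forall e),
    integral_const_mul, Measure.integral_comp_smul_of_nonneg _ _ _ (hR := by positivity),
    Module.finrank_fintype_fun_eq_card, Fintype.card_fin, Complex.real_smul, ← Complex.ofReal_pow,
    ← mul_assoc, ← Complex.ofReal_mul, Complex.re_ofReal_mul]
  congr 1
  rw [← pow_mul, mul_comm d r]
  nth_rw 1 [show n = (n - r * d) + r * d from (Nat.sub_add_cancel hdn).symm]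
  rw [pow_add, mul_assoc, mul_inv_cancel₀ (pow_ne_zero _ hk.ne'), mul_one]

/-- **Birch's theorem in any box and any congruence class.** -/
theorem exists_box_class_asymptotic {m s : ℕ} (hr : 0 < r) (hF : ∀ i, (F i).IsHomogeneous (m + 2))
    (hs : SystemSingularDimLE F s) (hn : s + r * (r + 1) * (m + 1) * 2 ^ (m + 1) < n) {M : ℕ}
    (hM : 1 ≤ M) (a : Fin n → ℤ) (u v : Fin n → ℝ) :
    ∃ δ C : ℝ, 0 < δ ∧ 0 < C ∧ ∀ P : ℕ, 1 ≤ P →
      |(countClassZeros F M a P u v : ℝ) - classSeries F M a * boxSysDensity F u v *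
          (P : ℝ) ^ (n - r * (m + 2))| ≤ C * (P : ℝ) ^ (((n - r * (m + 2) : ℕ) : ℝ) - δ) := by
  obtain ⟨k, hk⟩ : ∃ k : ℕ, k = ⌈∑ l, (|u l| + |v l|)⌉₊ + 1 := ⟨_, rfl⟩
  have hk0 : (0 : ℝ) < k := Nat.cast_pos.2 (by omega)
  have hsum : ∀ l, |u l| + |v l| ≤ (k : ℝ) := fun l => by
    rw [hk]; push_cast
    linarith [single_le_sum (f := fun l => |u l| + |v l|) (fun l _ => by positivity) (mem_univ l),
      Nat.le_ceil (∑ l, (|u l| + |v l|))]
  have huv : InUnitBox ((k : ℝ)⁻¹ • u) ((k : ℝ)⁻¹ • v) := fun l => by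
    simp only [Pi.smul_apply, smul_eq_mul]
    rw [le_inv_mul_iff₀ hk0, inv_mul_le_iff₀ hk0]
    constructor <;>
      linarith [hsum l, neg_abs_le (u l), le_abs_self (v l), abs_nonneg (u l), abs_nonneg (v l)]
  obtain ⟨δ, C, hδ, hC, h⟩ := exists_class_asymptotic F hr hF hs hn hM a huv
  obtain ⟨E, hE⟩ : ∃ E, E = n - r * (m + 2) := ⟨_, rfl⟩
  rw [← hE] at h ⊢
  refine ⟨δ, C * (k : ℝ) ^ ((E : ℝ) - δ), hδ, by positivity, fun P hP => ?_⟩
  have hdn : r * (m + 2) ≤ n := by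
    have h1 : m + 2 ≤ (r + 1) * (m + 1) :=
      le_trans (show m + 2 ≤ 2 * (m + 1) by omega) (Nat.mul_le_mul_right _ (by omega))
    have h2 : r * (m + 2) ≤ r * (r + 1) * (m + 1) * 2 ^ (m + 1) := by
      refine le_trans ?_ (Nat.le_mul_of_pos_right _ (Nat.two_pow_pos _))
      rw [mul_assoc]
      exact Nat.mul_le_mul_left r h1
    omega
  have hP' : (0 : ℝ) < P := Nat.cast_pos.2 hP
  have h1 := h (k * P) (Nat.mul_pos (by omega) hP)
  have hd := boxSysDensity_smul F hF hdn hk0 ((k : ℝ)⁻¹ • u) ((k : ℝ)⁻¹ • v)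
  simp only [smul_smul, mul_inv_cancel₀ hk0.ne', one_smul, ← hE] at hd
  rw [countClassZeros_scale, smul_smul, smul_smul, mul_inv_cancel₀ hk0.ne', one_smul, one_smul,
    Nat.cast_mul, mul_pow, Real.mul_rpow hk0.le hP'.le, ← mul_assoc C] at h1
  rw [hd]
  refine le_trans (le_of_eq ?_) h1
  congr 1
  ring

end FA.WeakApproximation
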