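import Fermat.Agent.FormSystems.Hasse
import Fermat.Agent.WeakApproximation.Asymptotic

/-!
# The constants of a box and a class are positive

The series of a class is positive when at every prime the class holds a nonsingular zero: it gives
one of the system `F (a + M w)`. The integral of a box is positive when the box holds a nonsingular
real zero inside. So the class then has zeros in the box at every large size.
-/

set_option autoImplicit false

noncomputable section

namespace FA.WeakApproximation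

open Finset FA.CubicForms FA.FormsManyVariables FA.FormSystems MvPolynomial MeasureTheory Filter
  Topology

variable {n r : ℕ} (F : Fin r → MvPolynomial (Fin n) ℤ)

theorem pderiv_shift (M : ℕ) (a : Fin n → ℤ) (G : MvPolynomial (Fin n) ℤ) (j : Fin n) :
    pderiv j (aeval (fun l => C (a l) + C (M : ℤ) * X l) G : MvPolynomial (Fin n) ℤ) =
      C (M : ℤ) * aeval (fun l => C (a l) + C (M : ℤ) * X l) (pderiv j G) := by
  induction G using MvPolynomial.induction_on with
  | C c => simp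
  | add p q hp hq => simp only [map_add, hp, hq, mul_add]
  | mul_X p i hp =>
    simp only [pderiv_mul, map_add, map_mul, aeval_X, hp, pderiv_C, pderiv_X, zero_mul, zero_add]
    rcases eq_or_ne i j with rfl | hij
    · simp only [Pi.single_eq_same, map_one]
      ring
    · simp only [Pi.single_eq_of_ne hij, map_zero]
      ring

theorem jacMinor_classShift {R : Type*} [CommRing R] (M : ℕ) (a : Fin n → ℤ) (f : Fin r → Fin n)
    (w : Fin n → R) : jacMinor (classShift F M a) f w =
      (M : R) ^ r * jacMinor F f fun l => (a l : R) + (M : R) * w l := by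
  have e : (Matrix.of fun i b => aeval w (pderiv (f b) (classShift F M a i))) =
      (M : R) • Matrix.of fun i b => aeval (fun l => (a l : R) + (M : R) * w l) (pderiv (f b) (F i)) :=
    by
      ext i b
      simp only [Matrix.smul_apply, Matrix.of_apply, smul_eq_mul, classShift, pderiv_shift, map_mul,
        comp_aeval_apply]
      simp
  rw [jacMinor, jacMinor, e, Matrix.det_smul, Fintype.card_fin]

/-- Nonzero common zeros over `ℚ_p` may be taken integral. -/
theorem exists_integral_multiple {m p : ℕ} [Fact p.Prime] (hF : ∀ i, (F i).IsHomogeneous (m + 2))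
    {z : Fin n → ℚ_[p]} (hz : ∀ i, aeval z (F i) = 0)
    (hli : LinearIndependent ℚ_[p] fun i j => aeval z (pderiv j (F i))) :
    ∃ x : Fin n → ℤ_[p], (∀ i, aeval x (F i) = 0) ∧
      LinearIndependent ℚ_[p] fun i j => aeval (fun l => (x l : ℚ_[p])) (pderiv j (F i)) := by
  obtain ⟨k, hk⟩ : ∃ k : ℕ, ∀ l, ‖(p : ℚ_[p]) ^ k * z l‖ ≤ 1 := by
    have hp : 1 < (p : ℝ) := by exact_mod_cast (Fact.out : p.Prime).one_lt
    obtain ⟨k, hk⟩ := pow_unbounded_of_one_lt (∑ l, ‖z l‖) hp
    refine ⟨k, fun l => ?_⟩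
    rw [norm_mul, norm_pow, Padic.norm_p, inv_pow, inv_mul_le_iff₀ (by positivity), mul_one]
    exact (single_le_sum (fun l _ => norm_nonneg (z l)) (mem_univ l)).trans hk.le
  have hc : (p : ℚ_[p]) ^ k ≠ 0 :=
    pow_ne_zero _ (Nat.cast_ne_zero.2 (Fact.out : p.Prime).ne_zero)
  obtain ⟨x, hx⟩ : ∃ x : Fin n → ℤ_[p], ∀ l, (x l : ℚ_[p]) = (p : ℚ_[p]) ^ k * z l :=
    ⟨fun l => ⟨(p : ℚ_[p]) ^ k * z l, hk l⟩, fun _ => rfl⟩
  have e : (fun l => PadicInt.Coe.ringHom (x l)) = ((p : ℚ_[p]) ^ k) • z := funext fun l => hx l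
  refine ⟨x, fun i => ?_, ?_⟩
  · have h := aeval_ringHom (F i) (PadicInt.Coe.ringHom (p := p)) x
    rw [e, aeval_smul (F i) (hF i), hz i, mul_zero] at h
    exact PadicInt.ext h.symm
  · refine (funext₂ fun i j => ?_ : (fun i j => aeval (fun l => (x l : ℚ_[p])) (pderiv j (F i))) =
      (fun _ : Fin r => Units.mk0 _ (pow_ne_zero (m + 1) hc)) •
        fun i j => aeval z (pderiv j (F i))) ▸ hli.units_smul _
    rw [show (fun l => (x l : ℚ_[p])) = ((p : ℚ_[p]) ^ k) • z from e]
    simp [aeval_smul _ (isHomogeneous_pderiv _ (hF i) j), Units.smul_def]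

/-- The class holds a nonsingular `p`-adic zero. -/
def ClassLocalZero (M : ℕ) (a : Fin n → ℤ) (p : ℕ) [Fact p.Prime] : Prop :=
  ∃ z : Fin n → ℤ_[p], (∀ l, (M : ℤ_[p]) ∣ z l - (a l : ℤ_[p])) ∧ (∀ i, aeval z (F i) = 0) ∧
    LinearIndependent ℚ_[p] fun i j => aeval (fun l => (z l : ℚ_[p])) (pderiv j (F i))

/-- At a prime not dividing `M` any nonsingular zero will do. -/
theorem classLocalZero_of_not_dvd {m p : ℕ} [hp : Fact p.Prime]
    (hF : ∀ i, (F i).IsHomogeneous (m + 2)) {M : ℕ} (hpM : ¬ p ∣ M) (a : Fin n → ℤ)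
    {z : Fin n → ℚ_[p]} (hz : ∀ i, aeval z (F i) = 0)
    (hli : LinearIndependent ℚ_[p] fun i j => aeval z (pderiv j (F i))) :
    ClassLocalZero F M a p := by
  obtain ⟨x, hx, hxli⟩ := exists_integral_multiple F hF hz hli
  have hu : IsUnit (M : ℤ_[p]) := PadicInt.isUnit_iff.2
    (PadicInt.norm_natCast_eq_one_iff.2 (hp.out.coprime_iff_not_dvd.2 hpM))
  exact ⟨x, fun l => hu.dvd, hx, hxli⟩

/-- **The series of a class is positive.** -/
theorem classSeries_pos {m s : ℕ} (hr : 0 < r) (hF : ∀ i, (F i).IsHomogeneous (m + 2))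
    (hs : SystemSingularDimLE F s) (hn : s + r * (r + 1) * (m + 1) * 2 ^ (m + 1) < n) {M : ℕ}
    (hM : 1 ≤ M) (a : Fin n → ℤ) (hloc : ∀ (p : ℕ) [Fact p.Prime], ClassLocalZero F M a p) :
    0 < classSeries F M a := by
  obtain ⟨C, -, hsum, -, -⟩ := exists_classShift_tail F hr hF hs hn hM a
  have hrn : r ≤ n := by
    have : r ≤ r * (r + 1) * (m + 1) * 2 ^ (m + 1) := by
      rw [mul_assoc, mul_assoc]; exact Nat.le_mul_of_pos_right _ (by positivity)
    omega
  refine div_pos (sysSeries_pos_of_summable _ hr hrn hsum fun p hp => ?_)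
    (pow_pos (Nat.cast_pos.2 hM) n)
  have : Fact p.Prime := ⟨hp⟩
  obtain ⟨z, hza, hz, hli⟩ := hloc p
  choose w hw using hza
  have e : (fun l => (a l : ℤ_[p]) + (M : ℤ_[p]) * w l) = z := funext fun l => by
    rw [← hw l, add_sub_cancel]
  obtain ⟨f, hf⟩ := exists_minor_ne_zero hli
  refine exists_sysZeroCount_ge (classShift F M a) (x := w) (fun i => ?_) (f := f) ?_
  · rw [aeval_classShift, e, hz i]
  · rw [jacMinor_classShift, e]
    refine mul_ne_zero (pow_ne_zero _ (Nat.cast_ne_zero.2 (by omega))) fun h => hf ?_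
    have h' := jacMinor_map F (PadicInt.Coe.ringHom (p := p)) f z
    rw [h, map_zero] at h'
    exact h'

/-- **The integral of a box is positive.** -/
theorem boxSysDensity_pos {m s : ℕ} (hr : 0 < r) (hF : ∀ i, (F i).IsHomogeneous (m + 2))
    (hs : SystemSingularDimLE F s) (hn : s + r * (r + 1) * (m + 1) * 2 ^ (m + 1) < n)
    {u v z : Fin n → ℝ} (huz : ∀ l, u l < z l) (hzv : ∀ l, z l < v l)
    (hz : ∀ i, aeval z (F i) = 0)
    (hli : LinearIndependent ℝ fun i j => aeval z (pderiv j (F i))) :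
    0 < boxSysDensity F u v := by
  obtain ⟨t, ht⟩ : ∃ t : ℝ, t = 1 / ((∑ l, (|u l| + |v l|)) + 1) := ⟨_, rfl⟩
  have hpos : 0 < (∑ l, (|u l| + |v l|)) + 1 := by positivity
  have ht0 : 0 < t := ht ▸ by positivity
  have hle : ∀ l, |u l| + |v l| ≤ t⁻¹ := fun l => by
    rw [ht, one_div, inv_inv]
    linarith [single_le_sum (f := fun l => |u l| + |v l|) (fun l _ => by positivity) (mem_univ l)]
  have huv : InUnitBox (t • u) (t • v) := fun l => by
    simp only [Pi.smul_apply, smul_eq_mul]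
    constructor
    · have h1 := mul_le_mul_of_nonneg_left
        (show -t⁻¹ ≤ u l by linarith [hle l, neg_abs_le (u l), abs_nonneg (v l)]) ht0.le
      rwa [mul_neg, mul_inv_cancel₀ ht0.ne'] at h1
    · have h1 := mul_le_mul_of_nonneg_left
        (show v l ≤ t⁻¹ by linarith [hle l, le_abs_self (v l), abs_nonneg (u l)]) ht0.le
      rwa [mul_inv_cancel₀ ht0.ne'] at h1
  have hdn : r * (m + 2) ≤ n := by
    have h1 : m + 2 ≤ (r + 1) * (m + 1) :=
      le_trans (show m + 2 ≤ 2 * (m + 1) by omega) (Nat.mul_le_mul_right _ (by omega))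
    have h2 : r * (m + 2) ≤ r * (r + 1) * (m + 1) * 2 ^ (m + 1) := by
      refine le_trans ?_ (Nat.le_mul_of_pos_right _ (Nat.two_pow_pos _))
      rw [mul_assoc]
      exact Nat.mul_le_mul_left r h1
    omega
  suffices h : 0 < boxSysDensity F (t • u) (t • v) by
    rw [boxSysDensity_smul F hF hdn ht0] at h
    exact pos_of_mul_pos_right h (by positivity)
  have hK : Set.Icc (t • u) (t • v) ∈ 𝓝 (t • z) := by
    rw [← Set.pi_univ_Icc]
    exact set_pi_mem_nhds Set.finite_univ fun l _ => Icc_mem_nhds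
      (mul_lt_mul_of_pos_left (huz l) ht0) (mul_lt_mul_of_pos_left (hzv l) ht0)
  obtain ⟨c, ε₀, hc, hε₀, hvol⟩ := exists_volume_small_inter_ge F hF (subset_symBox_one huv) hK
    (fun i => by rw [aeval_smul (F i) (hF i), hz i, mul_zero])
    ((funext₂ fun i j => by simp [aeval_smul _ (isHomogeneous_pderiv _ (hF i) j), Units.smul_def] :
      (fun i j => aeval (t • z) (pderiv j (F i))) =
        (fun _ : Fin r => Units.mk0 _ (pow_ne_zero (m + 1) ht0.ne')) •
          fun i j => aeval z (pderiv j (F i))) ▸ hli.units_smul _)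
  obtain ⟨C, -, hdec⟩ := exists_boxIntegral_decay F hr hF hs hn huv
  exact re_integral_setIntegral_pos F isCompact_Icc hc hε₀ hvol (continuous_boxIntegral F hF huv)
    (integrable_of_decay (continuous_boxIntegral F hF huv) hdec)

/-- The number of zeros divided by the power of `P` has a limit. -/
theorem tendsto_countClassZeros_div {m s : ℕ} (hr : 0 < r) (hF : ∀ i, (F i).IsHomogeneous (m + 2))
    (hs : SystemSingularDimLE F s) (hn : s + r * (r + 1) * (m + 1) * 2 ^ (m + 1) < n) {M : ℕ}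
    (hM : 1 ≤ M) (a : Fin n → ℤ) (u v : Fin n → ℝ) :
    Tendsto (fun P : ℕ => (countClassZeros F M a P u v : ℝ) / (P : ℝ) ^ (n - r * (m + 2))) atTop
      (𝓝 (classSeries F M a * boxSysDensity F u v)) := by
  obtain ⟨δ, C, hδ, -, h⟩ := exists_box_class_asymptotic F hr hF hs hn hM a u v
  have ht : Tendsto (fun P : ℕ => C * (P : ℝ) ^ (-δ)) atTop (𝓝 (C * 0)) :=
    ((tendsto_rpow_neg_atTop hδ).comp tendsto_natCast_atTop_atTop).const_mul C
  rw [mul_zero] at ht
  refine tendsto_sub_nhds_zero_iff.1 (squeeze_zero_norm' ?_ ht)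
  filter_upwards [eventually_ge_atTop 1] with P hP
  have hP' : (0 : ℝ) < P := Nat.cast_pos.2 hP
  have h1 := h P hP
  obtain ⟨E, hE⟩ : ∃ E, E = n - r * (m + 2) := ⟨_, rfl⟩
  rw [← hE] at h1 ⊢
  have hPE : (0 : ℝ) < (P : ℝ) ^ E := by positivity
  rw [sub_eq_add_neg (E : ℝ), Real.rpow_add hP', Real.rpow_natCast] at h1
  rw [Real.norm_eq_abs, div_sub' hPE.ne', abs_div, abs_of_pos hPE, div_le_iff₀ hPE,
    mul_comm ((P : ℝ) ^ E) (classSeries F M a * boxSysDensity F u v), mul_assoc C,
    mul_comm ((P : ℝ) ^ (-δ))]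
  exact h1

/-- **Zeros in the box and the class at every large size.** -/
theorem eventually_exists_class_zero {m s : ℕ} (hr : 0 < r) (hF : ∀ i, (F i).IsHomogeneous (m + 2))
    (hs : SystemSingularDimLE F s) (hn : s + r * (r + 1) * (m + 1) * 2 ^ (m + 1) < n) {M : ℕ}
    (hM : 1 ≤ M) (a : Fin n → ℤ) (hloc : ∀ (p : ℕ) [Fact p.Prime], ClassLocalZero F M a p)
    {u v z : Fin n → ℝ} (huz : ∀ l, u l < z l) (hzv : ∀ l, z l < v l)
    (hz : ∀ i, aeval z (F i) = 0)
    (hli : LinearIndependent ℝ fun i j => aeval z (pderiv j (F i))) :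
    ∀ᶠ P : ℕ in atTop, ∃ x : Fin n → ℤ, (∀ i, eval x (F i) = 0) ∧
      (∀ l, (x l : ZMod M) = (a l : ZMod M)) ∧
        ∀ l, (P : ℝ) * u l ≤ x l ∧ (x l : ℝ) ≤ (P : ℝ) * v l := by
  have hc := mul_pos (classSeries_pos F hr hF hs hn hM a hloc)
    (boxSysDensity_pos F hr hF hs hn huz hzv hz hli)
  filter_upwards [(tendsto_countClassZeros_div F hr hF hs hn hM a u v).eventually
    (lt_mem_nhds hc), eventually_ge_atTop 1] with P hpos hP
  obtain ⟨x, hx⟩ := card_pos.1 (Nat.pos_of_ne_zero fun h0 : countClassZeros F M a P u v = 0 => by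
    simp [h0] at hpos)
  obtain ⟨h1, h2⟩ := mem_filter.1 hx
  obtain ⟨h3, h4⟩ := mem_filter.1 h1
  exact ⟨x, h2, h4, mem_realBox.1 h3⟩

end FA.WeakApproximation
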