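import Fermat.Agent.SmoothIntersections.RealPoints
import Fermat.Agent.WeakApproximation.Positive
import Mathlib.Data.Nat.ChineseRemainder

/-!
# Weak approximation for complete intersections

In Birch's range nonsingular common zeros over `ℝ` and over finitely many `ℚ_p` are approximated at
once by one rational zero, if every other `ℚ_p` has a nonsingular zero. For smooth intersections
every nonzero zero is nonsingular; in enough variables the other places take care of themselves.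
-/

set_option autoImplicit false

noncomputable section

namespace FA.WeakApproximation

open Finset FA.FormsManyVariables FA.FormSystems MvPolynomial Filter Topology

variable {n r : ℕ} (F : Fin r → MvPolynomial (Fin n) ℤ)

theorem padic_norm_natCast_ge {p : ℕ} [Fact p.Prime] {N : ℕ} (hN : N ≠ 0) :
    (N : ℝ)⁻¹ ≤ ‖(N : ℚ_[p])‖ := by
  obtain ⟨v, u, hu, huv⟩ := Nat.exists_eq_pow_mul_and_not_dvd hN p (Fact.out : p.Prime).ne_one
  have hu1 : ‖(u : ℚ_[p])‖ = 1 :=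
    Padic.norm_natCast_eq_one_iff.2 ((Fact.out : p.Prime).coprime_iff_not_dvd.2 hu)
  have hp : (0 : ℝ) < p := Nat.cast_pos.2 (Fact.out : p.Prime).pos
  subst huv
  push_cast
  rw [norm_mul, norm_pow, hu1, mul_one, Padic.norm_p, inv_pow]
  refine inv_anti₀ (by positivity) ?_
  refine le_mul_of_one_le_right (by positivity) (Nat.one_le_cast.2 (Nat.pos_of_ne_zero fun h0 => ?_))
  exact hu (h0 ▸ dvd_zero p)

/-- A multiple clearing the denominators of finitely many local vectors. -/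
theorem exists_clearing (S : Finset ℕ) (hS : ∀ p ∈ S, p.Prime)
    (z : ∀ (p : ℕ) [Fact p.Prime], Fin n → ℚ_[p]) :
    ∃ N : ℕ, N ≠ 0 ∧ ∀ (p : ℕ) [Fact p.Prime], p ∈ S → ∀ l, ‖(N : ℚ_[p]) * z p l‖ ≤ 1 := by
  classical
  induction S using Finset.induction with
  | empty => exact ⟨1, one_ne_zero, by simp⟩
  | insert q S hqS ih =>
    obtain ⟨N, hN, h⟩ := ih fun p hp => hS p (mem_insert_of_mem hp)
    have hq : q.Prime := hS q (mem_insert_self _ _)
    have : Fact q.Prime := ⟨hq⟩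
    obtain ⟨k, hk⟩ := pow_unbounded_of_one_lt (∑ l, ‖z q l‖)
      (show (1 : ℝ) < q by exact_mod_cast hq.one_lt)
    refine ⟨q ^ k * N, mul_ne_zero (pow_ne_zero _ hq.ne_zero) hN, fun p inst hp l => ?_⟩
    rw [Nat.cast_mul, Nat.cast_pow]
    rcases mem_insert.1 hp with rfl | hp
    · rw [mul_comm ((p : ℚ_[p]) ^ k), mul_assoc, norm_mul]
      refine mul_le_one₀ (by simpa using Padic.norm_int_le_one (p := p) (N : ℤ)) (norm_nonneg _) ?_
      rw [norm_mul, norm_pow, Padic.norm_p, inv_pow,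
        inv_mul_le_iff₀ (pow_pos (Nat.cast_pos.2 hq.pos) _), mul_one]
      exact (single_le_sum (fun l _ => norm_nonneg (z p l)) (mem_univ l)).trans hk.le
    · rw [mul_assoc, norm_mul]
      refine mul_le_one₀ ?_ (norm_nonneg _) (h p hp l)
      simpa using Padic.norm_int_le_one (p := p) ((q ^ k : ℕ) : ℤ)

/-- Integers in prescribed classes modulo powers of finitely many primes. -/
theorem exists_crt_padic (S : Finset ℕ) (hS : ∀ p ∈ S, p.Prime) (L : ℕ)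
    (ζ : ∀ (p : ℕ) [Fact p.Prime], ℤ_[p]) :
    ∃ a : ℤ, ∀ (p : ℕ) [Fact p.Prime], p ∈ S → ((p : ℤ_[p]) ^ L) ∣ ζ p - (a : ℤ_[p]) := by
  classical
  obtain ⟨c, hc⟩ : ∃ c : ℕ → ℕ, c = fun p =>
      if hp : p.Prime then @ZMod.val _ (@PadicInt.toZModPow p ⟨hp⟩ L (@ζ p ⟨hp⟩)) else 0 := ⟨_, rfl⟩
  obtain ⟨k, hk⟩ := Nat.chineseRemainderOfFinset c (fun p => p ^ L) S
    (fun p hp => pow_ne_zero _ (hS p hp).ne_zero)
    fun p hp q hq hne => Nat.Coprime.pow L L ((Nat.coprime_primes (hS p hp) (hS q hq)).2 hne)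
  refine ⟨k, fun p inst hp => ?_⟩
  have : NeZero (p ^ L) := ⟨pow_ne_zero _ (hS p hp).ne_zero⟩
  have h1 := (ZMod.natCast_eq_natCast_iff _ _ _).2 (hk p hp)
  rw [hc] at h1
  simp only [dif_pos inst.out, ZMod.natCast_zmod_val] at h1
  rw [← Ideal.mem_span_singleton, ← PadicInt.ker_toZModPow, RingHom.mem_ker, map_sub, map_intCast,
    Int.cast_natCast, h1, sub_self]

/-- **Weak approximation by nonsingular zeros.** -/
theorem weak_approximation_nonsingular {m s : ℕ} (hr : 0 < r) (hF : ∀ i, (F i).IsHomogeneous (m + 2))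
    (hs : SystemSingularDimLE F s) (hn : s + r * (r + 1) * (m + 1) * 2 ^ (m + 1) < n)
    (S : Finset ℕ) (hS : ∀ p ∈ S, p.Prime)
    {w : Fin n → ℝ} (hw0 : w ≠ 0) (hw : ∀ i, aeval w (F i) = 0)
    (hwli : LinearIndependent ℝ fun i j => aeval w (pderiv j (F i)))
    (z : ∀ (p : ℕ) [Fact p.Prime], Fin n → ℚ_[p])
    (hz : ∀ (p : ℕ) [Fact p.Prime], (∀ i, aeval (z p) (F i) = 0) ∧
      LinearIndependent ℚ_[p] fun i j => aeval (z p) (pderiv j (F i)))
    {ε : ℝ} (hε : 0 < ε) :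
    ∃ y : Fin n → ℚ, y ≠ 0 ∧ (∀ i, aeval y (F i) = 0) ∧ (∀ l, |(y l : ℝ) - w l| < ε) ∧
      ∀ (p : ℕ) [Fact p.Prime], p ∈ S → ∀ l, ‖(y l : ℚ_[p]) - z p l‖ < ε := by
  classical
  obtain ⟨l₀, hl₀⟩ := Function.ne_iff.1 hw0
  obtain ⟨η, hη⟩ : ∃ η : ℝ, η = min ε |w l₀| := ⟨_, rfl⟩
  have hη0 : 0 < η := hη ▸ lt_min hε (abs_pos.2 hl₀)
  obtain ⟨N, hN, hNz⟩ := exists_clearing S hS z
  have hNr : (1 : ℝ) ≤ N := Nat.one_le_cast.2 (Nat.one_le_iff_ne_zero.2 hN)
  obtain ⟨L₁, hL₁⟩ := pow_unbounded_of_one_lt ((N : ℝ) / ε) one_lt_two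
  obtain ⟨L, hLdef⟩ : ∃ L : ℕ, L = L₁ + 1 := ⟨_, rfl⟩
  have hL : (N : ℝ) / ε < 2 ^ L :=
    hL₁.trans_le (pow_le_pow_right₀ one_le_two (by omega))
  obtain ⟨M, hM⟩ : ∃ M : ℕ, M = ∏ p ∈ S, p ^ L := ⟨_, rfl⟩
  have hM1 : 1 ≤ M := hM ▸ prod_pos fun p hp => pow_pos (hS p hp).pos L
  obtain ⟨ζ, hζ⟩ : ∃ ζ : ∀ (p : ℕ) [Fact p.Prime], Fin n → ℤ_[p],
      ∀ (p : ℕ) [Fact p.Prime], p ∈ S → ∀ l, (ζ p l : ℚ_[p]) = (N : ℚ_[p]) * z p l :=
    ⟨fun p _ l => if h : ‖(N : ℚ_[p]) * z p l‖ ≤ 1 then ⟨_, h⟩ else 0,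
      fun p _ hp l => by simp only [dif_pos (hNz p hp l)]⟩
  choose a ha using fun l => exists_crt_padic S hS L fun p => ζ p l
  have hloc : ∀ (p : ℕ) [Fact p.Prime], ClassLocalZero F M a p := by
    intro p hpf
    obtain ⟨hzp, hlip⟩ := hz p
    by_cases hp : p ∈ S
    · have hc : (N : ℚ_[p]) ≠ 0 := Nat.cast_ne_zero.2 hN
      have e : (fun l => PadicInt.Coe.ringHom (ζ p l)) = (N : ℚ_[p]) • z p :=
        funext fun l => hζ p hp l
      have hprod : IsUnit ((∏ q ∈ S.erase p, q ^ L : ℕ) : ℤ_[p]) := by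
        rw [Nat.cast_prod]
        refine IsUnit.prod_iff.2 fun q hq => ?_
        rw [Nat.cast_pow]
        refine IsUnit.pow L (PadicInt.isUnit_iff.2 (le_antisymm (PadicInt.norm_le_one _)
          (not_lt.1 fun h => ?_)))
        rw [← Int.cast_natCast, PadicInt.norm_int_lt_one_iff_dvd, Int.natCast_dvd_natCast,
          Nat.prime_dvd_prime_iff_eq hpf.out (hS q (mem_of_mem_erase hq))] at h
        exact ne_of_mem_erase hq h.symm
      refine ⟨ζ p, fun l => ?_, fun i => ?_, ?_⟩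
      · rw [hM, ← mul_prod_erase S (fun q => q ^ L) hp, Nat.cast_mul, Nat.cast_pow,
          hprod.mul_right_dvd]
        exact ha l p hp
      · have h := aeval_ringHom (F i) (PadicInt.Coe.ringHom (p := p)) (ζ p)
        rw [e, aeval_smul (F i) (hF i), hzp i, mul_zero] at h
        exact PadicInt.ext h.symm
      · refine (funext₂ fun i j => ?_ :
          (fun i j => aeval (fun l => (ζ p l : ℚ_[p])) (pderiv j (F i))) =
            (fun _ : Fin r => Units.mk0 _ (pow_ne_zero (m + 1) hc)) •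
              fun i j => aeval (z p) (pderiv j (F i))) ▸ hlip.units_smul _
        rw [show (fun l => (ζ p l : ℚ_[p])) = (N : ℚ_[p]) • z p from e]
        simp [aeval_smul _ (isHomogeneous_pderiv _ (hF i) j), Units.smul_def]
    · refine classLocalZero_of_not_dvd F hF (fun hdvd => hp ?_) a hzp hlip
      rw [hM] at hdvd
      obtain ⟨q, hq, hpq⟩ := (Prime.dvd_finsetProd_iff (Nat.prime_iff.1 hpf.out) _).1 hdvd
      have := (Nat.prime_dvd_prime_iff_eq hpf.out (hS q hq)).1 (hpf.out.dvd_of_dvd_pow hpq)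
      exact this ▸ hq
  have hwN : ∀ i, aeval ((N : ℝ) • w) (F i) = 0 := fun i => by
    rw [aeval_smul (F i) (hF i), hw i, mul_zero]
  have hNli : LinearIndependent ℝ fun i j => aeval ((N : ℝ) • w) (pderiv j (F i)) :=
    (funext₂ fun i j => by simp [aeval_smul _ (isHomogeneous_pderiv _ (hF i) j), Units.smul_def] :
      (fun i j => aeval ((N : ℝ) • w) (pderiv j (F i))) =
        (fun _ : Fin r => Units.mk0 _ (pow_ne_zero (m + 1) (by linarith : (N : ℝ) ≠ 0))) •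
          fun i j => aeval w (pderiv j (F i))) ▸ hwli.units_smul _
  have hev := eventually_exists_class_zero F hr hF hs hn hM1 a hloc
    (u := fun l => (N : ℝ) * w l - η / 2) (v := fun l => (N : ℝ) * w l + η / 2)
    (z := (N : ℝ) • w) (fun l => by simp only [Pi.smul_apply, smul_eq_mul]; linarith)
    (fun l => by simp only [Pi.smul_apply, smul_eq_mul]; linarith) hwN hNli
  obtain ⟨T, hT⟩ := eventually_atTop.1 hev
  obtain ⟨P, hP⟩ : ∃ P : ℕ, P = 1 + M * T := ⟨_, rfl⟩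
  obtain ⟨x, hx0, hxc, hxb⟩ := hT P (by
    have := Nat.le_mul_of_pos_left T hM1
    omega)
  obtain ⟨c, hc⟩ : ∃ c : ℚ, c = ((N : ℚ) * P)⁻¹ := ⟨_, rfl⟩
  have hP1 : (1 : ℝ) ≤ P := Nat.one_le_cast.2 (by omega)
  have hreal : ∀ l, |((c * x l : ℚ) : ℝ) - w l| < η := by
    intro l
    obtain ⟨h1, h2⟩ := hxb l
    have e : ((c * x l : ℚ) : ℝ) - w l = ((x l : ℝ) - N * P * w l) / (N * P) := by
      rw [hc]; push_cast; field_simp
    rw [e, abs_div, abs_of_pos (show (0 : ℝ) < (N : ℝ) * P by positivity),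
      div_lt_iff₀ (by positivity)]
    have h3 : |(x l : ℝ) - N * P * w l| ≤ η / 2 * P :=
      abs_le.2 ⟨by linarith, by linarith⟩
    have h4 : η * P ≤ η * ((N : ℝ) * P) := by
      gcongr
      exact le_mul_of_one_le_left (by linarith) hNr
    nlinarith
  refine ⟨fun l => c * x l, fun h => ?_, fun i => ?_, fun l => ?_, fun p hpf hp l => ?_⟩
  · have h1 := hreal l₀
    rw [show c * (x l₀ : ℚ) = 0 from congrFun h l₀, Rat.cast_zero, zero_sub, abs_neg] at h1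
    exact absurd h1 (not_lt.2 (hη ▸ min_le_right _ _))
  · rw [show (fun l => c * (x l : ℚ)) = c • fun l => ((x l : ℤ) : ℚ) from rfl,
      aeval_smul (F i) (hF i), aeval_intCast, hx0, Int.cast_zero, mul_zero]
  · exact (hreal l).trans_le (hη ▸ min_le_left _ _)
  · have hdM : p ^ L ∣ M := hM ▸ Finset.dvd_prod_of_mem _ hp
    have hdP : ((p : ℤ_[p]) ^ L) ∣ 1 - (P : ℤ_[p]) := by
      refine ⟨-((M / p ^ L * T : ℕ) : ℤ_[p]), ?_⟩
      have e : M * T = p ^ L * (M / p ^ L * T) := by rw [← mul_assoc, Nat.mul_div_cancel' hdM]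
      rw [hP, e]
      push_cast
      ring
    have hdx : ((p : ℤ_[p]) ^ L) ∣ (x l : ℤ_[p]) - (P : ℤ_[p]) * ζ p l := by
      obtain ⟨k, hk⟩ := (ZMod.intCast_eq_intCast_iff_dvd_sub _ _ _).1 (hxc l).symm
      have h1 : ((p : ℤ_[p]) ^ L) ∣ (M : ℤ_[p]) := by
        rw [← Nat.cast_pow]; exact Nat.cast_dvd_cast hdM
      have h2 : (x l : ℤ_[p]) - (P : ℤ_[p]) * ζ p l =
          (M : ℤ_[p]) * k - (ζ p l - (a l : ℤ_[p])) + (1 - (P : ℤ_[p])) * ζ p l := by
        have h3 := congrArg (fun t : ℤ => (t : ℤ_[p])) hk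
        push_cast at h3
        linear_combination h3
      rw [h2]
      exact dvd_add (dvd_sub (h1.mul_right _) (ha l p hp)) (hdP.mul_right _)
    have hnorm : ‖((x l : ℤ_[p]) - (P : ℤ_[p]) * ζ p l : ℤ_[p])‖ ≤ (p : ℝ) ^ (-(L : ℤ)) := by
      rw [PadicInt.norm_le_pow_iff_mem_span_pow]
      exact Ideal.mem_span_singleton.2 hdx
    have hPn : ‖(P : ℚ_[p])‖ = 1 := by
      refine Padic.norm_natCast_eq_one_iff.2 (hpf.out.coprime_iff_not_dvd.2 fun h1 => ?_)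
      rw [hP] at h1
      exact hpf.out.ne_one (Nat.dvd_one.1 ((Nat.dvd_add_left
        (((dvd_pow_self p (by omega : L ≠ 0)).trans hdM).mul_right T)).1 h1))
    have hcoe : ((c * x l : ℚ) : ℚ_[p]) - z p l =
        (((x l : ℤ_[p]) - (P : ℤ_[p]) * ζ p l : ℤ_[p]) : ℚ_[p]) / ((N : ℚ_[p]) * P) := by
      have h1 : (N : ℚ_[p]) ≠ 0 := Nat.cast_ne_zero.2 hN
      have h2 : (P : ℚ_[p]) ≠ 0 := Nat.cast_ne_zero.2 (by omega)
      rw [hc]
      push_cast
      rw [hζ p hp l]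
      field_simp
    rw [hcoe, norm_div, norm_mul, hPn, mul_one, PadicInt.padic_norm_e_of_padicInt]
    have hN0 : 0 < ‖(N : ℚ_[p])‖ := norm_pos_iff.2 (Nat.cast_ne_zero.2 hN)
    rw [div_lt_iff₀ hN0]
    refine hnorm.trans_lt ?_
    have hNn := padic_norm_natCast_ge (p := p) hN
    refine lt_of_lt_of_le ?_ (mul_le_mul_of_nonneg_left hNn hε.le)
    rw [zpow_neg, zpow_natCast, ← div_eq_mul_inv, inv_lt_iff_one_lt_mul₀
      (pow_pos (Nat.cast_pos.2 hpf.out.pos) L), div_mul_eq_mul_div, one_lt_div (by linarith)]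
    have h2L : (2 : ℝ) ^ L ≤ (p : ℝ) ^ L :=
      pow_le_pow_left₀ two_pos.le (by exact_mod_cast hpf.out.two_le) L
    rw [div_lt_iff₀ hε] at hL
    nlinarith

/-- **Weak approximation for smooth intersections.** -/
theorem smooth_weak_approximation {m : ℕ} (hr : 0 < r) (hF : ∀ i, (F i).IsHomogeneous (m + 2))
    (hsm : SmoothCommonZeros F) (hn : r + r * (r + 1) * (m + 1) * 2 ^ (m + 1) < n)
    (S : Finset ℕ) (hS : ∀ p ∈ S, p.Prime)
    (hpadic : ∀ (p : ℕ) [Fact p.Prime], p ∉ S →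
      ∃ z : Fin n → ℚ_[p], z ≠ 0 ∧ ∀ i, aeval z (F i) = 0)
    {w : Fin n → ℝ} (hw0 : w ≠ 0) (hw : ∀ i, aeval w (F i) = 0)
    (z : ∀ (p : ℕ) [Fact p.Prime], Fin n → ℚ_[p])
    (hz : ∀ (p : ℕ) [Fact p.Prime], p ∈ S → z p ≠ 0 ∧ ∀ i, aeval (z p) (F i) = 0)
    {ε : ℝ} (hε : 0 < ε) :
    ∃ y : Fin n → ℚ, y ≠ 0 ∧ (∀ i, aeval y (F i) = 0) ∧ (∀ l, |(y l : ℝ) - w l| < ε) ∧
      ∀ (p : ℕ) [Fact p.Prime], p ∈ S → ∀ l, ‖(y l : ℚ_[p]) - z p l‖ < ε := by
  classical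
  have hall : ∀ (p : ℕ) [Fact p.Prime], ∃ t : Fin n → ℚ_[p],
      (p ∈ S → t = z p) ∧ t ≠ 0 ∧ ∀ i, aeval t (F i) = 0 := fun p hpf => by
    by_cases hp : p ∈ S
    · exact ⟨z p, fun _ => rfl, hz p hp⟩
    · obtain ⟨t, ht0, ht⟩ := hpadic p hp
      exact ⟨t, fun h => absurd h hp, ht0, ht⟩
  choose t htz ht0 ht using hall
  obtain ⟨y, hy0, hy, hyw, hyz⟩ := weak_approximation_nonsingular F hr hF
    (SmoothIntersections.systemSingularDimLE_of_smooth hr hF hsm) hn S hS hw0 hw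
    (hsm.independent F hF hw hw0) t (fun p _ => ⟨ht p, hsm.independent F hF (ht p) (ht0 p)⟩) hε
  exact ⟨y, hy0, hy, hyw, fun p _ hp l => htz p hp ▸ hyz p hp l⟩

/-- **In enough variables** nothing is assumed at the other primes. -/
theorem exists_bound_weak_approximation (m : ℕ) {r : ℕ} (hr : 0 < r) :
    ∃ n₀, ∀ n, n₀ ≤ n → ∀ F : Fin r → MvPolynomial (Fin n) ℤ,
      (∀ i, (F i).IsHomogeneous (m + 2)) → SmoothCommonZeros F →
      ∀ S : Finset ℕ, (∀ p ∈ S, p.Prime) →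
      ∀ w : Fin n → ℝ, w ≠ 0 → (∀ i, aeval w (F i) = 0) →
      ∀ z : ∀ (p : ℕ) [Fact p.Prime], Fin n → ℚ_[p],
        (∀ (p : ℕ) [Fact p.Prime], p ∈ S → z p ≠ 0 ∧ ∀ i, aeval (z p) (F i) = 0) →
      ∀ ε : ℝ, 0 < ε → ∃ y : Fin n → ℚ, y ≠ 0 ∧ (∀ i, aeval y (F i) = 0) ∧
        (∀ l, |(y l : ℝ) - w l| < ε) ∧
          ∀ (p : ℕ) [Fact p.Prime], p ∈ S → ∀ l, ‖(y l : ℚ_[p]) - z p l‖ < ε := by
  obtain ⟨n₁, h⟩ := SmoothIntersections.exists_all_padic_zeros r (m + 2) (by omega)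
  refine ⟨max n₁ (r + r * (r + 1) * (m + 1) * 2 ^ (m + 1) + 1),
    fun n hn F hF hsm S hS w hw0 hw z hz ε hε => ?_⟩
  exact smooth_weak_approximation F hr hF hsm (Nat.lt_of_succ_le ((le_max_right _ _).trans hn)) S hS
    (fun p _ _ => h n ((le_max_left _ _).trans hn) F hF p) hw0 hw z hz hε

/-- **Equidistribution in congruence classes.** -/
theorem tendsto_class_proportion {m s : ℕ} (hr : 0 < r) (hF : ∀ i, (F i).IsHomogeneous (m + 2))
    (hs : SystemSingularDimLE F s) (hn : s + r * (r + 1) * (m + 1) * 2 ^ (m + 1) < n)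
    {M : ℕ} (hM : 1 ≤ M) (a : Fin n → ℤ)
    (hpadic : ∀ (p : ℕ) [Fact p.Prime], ∃ z : Fin n → ℚ_[p], (∀ i, aeval z (F i) = 0) ∧
      LinearIndependent ℚ_[p] fun i j => aeval z (pderiv j (F i)))
    {u v w : Fin n → ℝ} (huw : ∀ l, u l < w l) (hwv : ∀ l, w l < v l)
    (hw : ∀ i, aeval w (F i) = 0)
    (hwli : LinearIndependent ℝ fun i j => aeval w (pderiv j (F i))) :
    Tendsto (fun P : ℕ => (countClassZeros F M a P u v : ℝ) / countClassZeros F 1 0 P u v) atTop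
      (𝓝 (classSeries F M a / classSeries F 1 0)) := by
  have hS : 0 < classSeries F 1 0 := classSeries_pos F hr hF hs hn le_rfl 0 fun p hp => by
    obtain ⟨z, hz, hli⟩ := hpadic p
    exact classLocalZero_of_not_dvd F hF (fun h => hp.out.ne_one (Nat.dvd_one.1 h)) 0 hz hli
  have hJ := boxSysDensity_pos F hr hF hs hn huw hwv hw hwli
  have h1 := tendsto_countClassZeros_div F hr hF hs hn hM a u v
  have h2 := tendsto_countClassZeros_div F hr hF hs hn le_rfl 0 u v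
  have h3 := h1.div h2 (mul_pos hS hJ).ne'
  rw [mul_div_mul_right _ _ hJ.ne'] at h3
  refine h3.congr' ?_
  filter_upwards [eventually_ge_atTop 1] with P hP
  exact div_div_div_cancel_right₀ (pow_ne_zero _ (Nat.cast_ne_zero.2 (by omega))) _ _

end FA.WeakApproximation
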