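import Fermat.Agent.FormSystems.Vandermonde
import Fermat.Agent.WeakApproximation.Main

/-!
# Intersections with weak approximation and no hypothesis left

The binomial diagonal systems have a rational zero, so in Birch's range their rational zeros are
dense among the real and `p`-adic ones; for odd degree in enough variables there are always real
zeros, all of them limits of rational ones.
-/

set_option autoImplicit false

noncomputable section

namespace FA.WeakApproximation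

open Finset FA.FormsManyVariables FA.FormSystems MvPolynomial

variable {n r m : ℕ}

/-- **The binomial diagonal systems.** -/
theorem vandermonde_weak_approximation (hr : 0 < r)
    (hn : r + r * (r + 1) * (m + 1) * 2 ^ (m + 1) < n) (S : Finset ℕ) (hS : ∀ p ∈ S, p.Prime)
    {w : Fin n → ℝ} (hw0 : w ≠ 0)
    (hw : ∀ i, aeval w (vandermondeSystem (binomialWeight r) r (m + 2) i) = 0)
    (z : ∀ (p : ℕ) [Fact p.Prime], Fin n → ℚ_[p])
    (hz : ∀ (p : ℕ) [Fact p.Prime], p ∈ S →
      z p ≠ 0 ∧ ∀ i, aeval (z p) (vandermondeSystem (binomialWeight r) r (m + 2) i) = 0)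
    {ε : ℝ} (hε : 0 < ε) :
    ∃ y : Fin n → ℚ, y ≠ 0 ∧
      (∀ i, aeval y (vandermondeSystem (binomialWeight r) r (m + 2) i) = 0) ∧
      (∀ l, |(y l : ℝ) - w l| < ε) ∧
      ∀ (p : ℕ) [Fact p.Prime], p ∈ S → ∀ l, ‖(y l : ℚ_[p]) - z p l‖ < ε := by
  refine smooth_weak_approximation _ hr (fun _ => diagonalForm_isHomogeneous _ _)
    (vandermonde_smooth (binomialWeight_ne_zero r)) hn S hS (fun p _ _ => ?_) hw0 hw z hz hε
  refine ⟨fun j : Fin n => ((if (j : ℕ) ≤ r then 1 else 0 : ℤ) : ℚ_[p]), fun h => ?_,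
    vandermonde_known_zero (by omega) ℚ_[p]⟩
  simpa using congrFun h ⟨0, by omega⟩

/-- **Odd degree**: real zeros exist and the rational ones are dense among them. -/
theorem exists_bound_odd_dense {d : ℕ} (hd : Odd d) (hd3 : 3 ≤ d) (hr : 0 < r) :
    ∃ n₀, ∀ n, n₀ ≤ n → ∀ F : Fin r → MvPolynomial (Fin n) ℤ,
      (∀ i, (F i).IsHomogeneous d) → SmoothCommonZeros F →
        (∃ w : Fin n → ℝ, w ≠ 0 ∧ ∀ i, aeval w (F i) = 0) ∧
        ∀ w : Fin n → ℝ, w ≠ 0 → (∀ i, aeval w (F i) = 0) →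
          ∀ ε : ℝ, 0 < ε → ∃ y : Fin n → ℚ, y ≠ 0 ∧ (∀ i, aeval y (F i) = 0) ∧
            ∀ l, |(y l : ℝ) - w l| < ε := by
  obtain ⟨m, rfl⟩ : ∃ m, d = m + 2 := ⟨d - 2, by omega⟩
  obtain ⟨n₀, h⟩ := exists_bound_weak_approximation m hr
  refine ⟨max n₀ (r + 1), fun n hn F hF hsm =>
    ⟨SmoothIntersections.exists_real_zero_odd_system hd
      (Nat.lt_of_succ_le ((le_max_right _ _).trans hn)) F hF, fun w hw0 hw ε hε => ?_⟩⟩
  obtain ⟨y, hy0, hy, hyw, -⟩ := h n ((le_max_left _ _).trans hn) F hF hsm ∅ (by simp) w hw0 hw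
    (fun _ _ => 0) (by simp) ε hε
  exact ⟨y, hy0, hy, hyw⟩

end FA.WeakApproximation
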